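import Mathlib

/-!
# Case I of Fermat's Last Theorem via Sophie Germain's theorem

`caseI_sophieGermain`: if `p` is an odd prime and `q` is an auxiliary prime such that
* `x ^ p + y ^ p + z ^ p = 0` in `ZMod q` forces `x * y * z = 0`, and
* `p` is not a `p`-th power in `ZMod q`,
then `a ^ p + b ^ p = c ^ p` has no solution in integers with `IsCoprime a b` and `p ∤ a * b * c`.

Instances: `caseI_5` (`q = 11`), `caseI_7` (`q = 29`), `caseI_11` (`q = 23`), `caseI_13` (`q = 53`).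
-/

set_option autoImplicit false

namespace Fermat.Agent.Kummer

open Finset

/-- The cofactor `(y ^ p + z ^ p) / (y + z)` written as a geometric sum. -/
def sgPhi {R : Type*} [CommRing R] (p : ℕ) (y z : R) : R :=
  ∑ i ∈ range p, y ^ i * (-z) ^ (p - 1 - i)

lemma sgPhi_mul {R : Type*} [CommRing R] {p : ℕ} (hp : Odd p) (y z : R) :
    sgPhi p y z * (y + z) = y ^ p + z ^ p := by
  have h := (Commute.all y (-z)).geom_sum₂_mul p
  rw [sub_neg_eq_add, hp.neg_pow, sub_neg_eq_add] at h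
  exact h

lemma sgPhi_map {R S : Type*} [CommRing R] [CommRing S] (f : R →+* S) (p : ℕ) (y z : R) :
    f (sgPhi p y z) = sgPhi p (f y) (f z) := by
  simp [sgPhi, map_sum, map_mul, map_pow, map_neg]

/-- If `z = -y` then the cofactor is `p * y ^ (p - 1)`. -/
lemma sgPhi_neg_self {R : Type*} [CommRing R] (p : ℕ) (y : R) :
    sgPhi p y (-y) = p * y ^ (p - 1) := by
  unfold sgPhi
  rw [neg_neg]
  have : ∀ i ∈ range p, y ^ i * y ^ (p - 1 - i) = y ^ (p - 1) := by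
    intro i hi
    rw [← pow_add]
    congr 1
    have := mem_range.mp hi
    omega
  rw [sum_congr rfl this, sum_const, card_range, nsmul_eq_mul]

/-- If the first variable vanishes then the cofactor is `z ^ (p - 1)` (for odd `p`). -/
lemma sgPhi_zero_left {R : Type*} [CommRing R] {p : ℕ} (hp : Odd p) (z : R) :
    sgPhi p 0 z = z ^ (p - 1) := by
  unfold sgPhi
  have hp0 : 0 < p := hp.pos
  rw [sum_eq_single_of_mem 0 (mem_range.mpr hp0)]
  · have he : Even (p - 1) := by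
      obtain ⟨k, hk⟩ := hp
      exact ⟨k, by omega⟩
    simp [he.neg_pow]
  · intro i _ hi
    simp [zero_pow hi]

lemma sg_isCoprime_of_forall_prime_not_dvd {a b : ℤ}
    (h : ∀ r : ℕ, r.Prime → (r : ℤ) ∣ a → (r : ℤ) ∣ b → False) : IsCoprime a b := by
  rw [Int.isCoprime_iff_gcd_eq_one]
  by_contra hne
  obtain ⟨r, hr, hrd⟩ := Nat.exists_prime_and_dvd hne
  exact h r hr (Int.natCast_dvd.mpr (hrd.trans (Int.gcd_dvd_natAbs_left a b)))
    (Int.natCast_dvd.mpr (hrd.trans (Int.gcd_dvd_natAbs_right a b)))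

lemma sg_prime_not_dvd_of_isCoprime {a b : ℤ} (h : IsCoprime a b) {r : ℕ} (hr : r.Prime)
    (ha : (r : ℤ) ∣ a) (hb : (r : ℤ) ∣ b) : False := by
  have hu : IsUnit (r : ℤ) := h.isUnit_of_dvd' ha hb
  have := Int.isUnit_iff.mp hu
  have h2 := hr.two_le
  omega

/-- Coprimality of `y + z` and the cofactor, when `p ∤ y + z`. -/
lemma sg_isCoprime_add_sgPhi {p : ℕ} (hp : p.Prime) {y z : ℤ} (hyz : IsCoprime y z)
    (hpyz : ¬ (p : ℤ) ∣ y + z) : IsCoprime (y + z) (sgPhi p y z) := by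
  apply sg_isCoprime_of_forall_prime_not_dvd
  intro r hr h1 h2
  have hrp : Prime (r : ℤ) := Nat.prime_iff_prime_int.mp hr
  have hsub : (r : ℤ) ∣ y - (-z) := by rwa [sub_neg_eq_add]
  have h3 : (r : ℤ) ∣ (p : ℤ) * (-z) ^ (p - 1) := by
    have := (dvd_geom_sum₂_iff_of_dvd_sub (n := p) hsub).mp h2
    exact_mod_cast this
  rcases hrp.dvd_or_dvd h3 with h4 | h4
  · have : r ∣ p := Int.natCast_dvd_natCast.mp h4
    have hrp' : r = p := (Nat.prime_dvd_prime_iff_eq hr hp).mp this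
    subst hrp'
    exact hpyz h1
  · have h5 : (r : ℤ) ∣ -z := hrp.dvd_of_dvd_pow h4
    have h6 : (r : ℤ) ∣ z := (dvd_neg).mp h5
    have h7 : (r : ℤ) ∣ y := by
      have := dvd_sub h1 h6
      simpa using this
    exact sg_prime_not_dvd_of_isCoprime hyz hr h7 h6

/-- From `x ^ p + y ^ p + z ^ p = 0` with `y, z` coprime and `p ∤ x`:
both `y + z` and the cofactor are `p`-th powers. -/
lemma sg_exists_pow_of_sum_eq_zero {p : ℕ} (hp : p.Prime) (hp2 : p ≠ 2) {x y z : ℤ}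
    (h : x ^ p + y ^ p + z ^ p = 0) (hyz : IsCoprime y z) (hpx : ¬ (p : ℤ) ∣ x) :
    (∃ a : ℤ, y + z = a ^ p) ∧ ∃ α : ℤ, sgPhi p y z = α ^ p := by
  have hodd : Odd p := hp.odd_of_ne_two hp2
  have hprod : (y + z) * sgPhi p y z = (-x) ^ p := by
    rw [mul_comm, sgPhi_mul hodd, hodd.neg_pow]
    linarith
  have hpyz : ¬ (p : ℤ) ∣ y + z := by
    intro hd
    have h1 : (p : ℤ) ∣ (-x) ^ p := hprod ▸ Dvd.dvd.mul_right hd _
    have h2 : (p : ℤ) ∣ -x := (Nat.prime_iff_prime_int.mp hp).dvd_of_dvd_pow h1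
    exact hpx ((dvd_neg).mp h2)
  have hcop := sg_isCoprime_add_sgPhi hp hyz hpyz
  exact Int.eq_pow_of_mul_eq_pow_odd hcop hodd hprod

/-- The symmetric core of Sophie Germain's theorem: the auxiliary prime `q` cannot divide `x`. -/
lemma sophieGermain_core {p q : ℕ} (hp : p.Prime) (hp2 : p ≠ 2) (hq : q.Prime)
    (h1 : ∀ x y z : ZMod q, x ^ p + y ^ p + z ^ p = 0 → x * y * z = 0)
    (h2 : ∀ x : ZMod q, x ^ p ≠ (p : ZMod q))
    {x y z : ℤ} (h : x ^ p + y ^ p + z ^ p = 0)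
    (hxy : IsCoprime x y) (hyz : IsCoprime y z) (hzx : IsCoprime z x)
    (hpx : ¬ (p : ℤ) ∣ x) (hpy : ¬ (p : ℤ) ∣ y) (hpz : ¬ (p : ℤ) ∣ z)
    (hqx : (q : ℤ) ∣ x) : False := by
  have : Fact q.Prime := ⟨hq⟩
  have hodd : Odd p := hp.odd_of_ne_two hp2
  obtain ⟨⟨a, ha⟩, ⟨α, hα⟩⟩ := sg_exists_pow_of_sum_eq_zero hp hp2 h hyz hpx
  have h' : y ^ p + z ^ p + x ^ p = 0 := by linarith
  obtain ⟨⟨b, hb⟩, -⟩ := sg_exists_pow_of_sum_eq_zero hp hp2 h' hzx hpy
  have h'' : z ^ p + x ^ p + y ^ p = 0 := by linarith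
  obtain ⟨⟨c, hc⟩, ⟨γ, hγ⟩⟩ := sg_exists_pow_of_sum_eq_zero hp hp2 h'' hxy hpz
  -- `b ^ p + c ^ p + (-a) ^ p = 2 x ≡ 0 mod q`
  have hx0 : ((x : ℤ) : ZMod q) = 0 := (ZMod.intCast_zmod_eq_zero_iff_dvd x q).mpr hqx
  have hsum : ((b : ℤ) : ZMod q) ^ p + (c : ZMod q) ^ p + ((-a : ℤ) : ZMod q) ^ p = 0 := by
    have e : b ^ p + c ^ p + (-a) ^ p = 2 * x := by
      rw [hodd.neg_pow, ← ha, ← hb, ← hc]; ring
    have := congrArg (Int.cast : ℤ → ZMod q) e
    push_cast at this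
    rw [hx0, mul_zero] at this
    push_cast
    exact this
  have hprod := h1 _ _ _ hsum
  have hqy : ¬ (q : ℤ) ∣ y := fun hd => sg_prime_not_dvd_of_isCoprime hxy hq hqx hd
  have hqz : ¬ (q : ℤ) ∣ z := fun hd => sg_prime_not_dvd_of_isCoprime hzx hq hd hqx
  have hb0 : ((b : ℤ) : ZMod q) ≠ 0 := by
    intro hb0
    have : (q : ℤ) ∣ b := (ZMod.intCast_zmod_eq_zero_iff_dvd b q).mp hb0
    have hzx' : (q : ℤ) ∣ z + x := hb ▸ dvd_pow this hp.ne_zero
    exact hqz (by simpa using dvd_sub hzx' hqx)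
  have hc0 : ((c : ℤ) : ZMod q) ≠ 0 := by
    intro hc0
    have : (q : ℤ) ∣ c := (ZMod.intCast_zmod_eq_zero_iff_dvd c q).mp hc0
    have hxy' : (q : ℤ) ∣ x + y := hc ▸ dvd_pow this hp.ne_zero
    exact hqy (by simpa using dvd_sub hxy' hqx)
  have ha0 : ((a : ℤ) : ZMod q) = 0 := by
    rcases mul_eq_zero.mp hprod with hbc | ha'
    · rcases mul_eq_zero.mp hbc with hb' | hc'
      · exact absurd hb' hb0
      · exact absurd hc' hc0
    · simpa using ha'
  have hqa : (q : ℤ) ∣ a := (ZMod.intCast_zmod_eq_zero_iff_dvd a q).mp ha0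
  have hyz0 : ((y : ℤ) : ZMod q) + (z : ZMod q) = 0 := by
    have : (q : ℤ) ∣ y + z := ha ▸ dvd_pow hqa hp.ne_zero
    have := (ZMod.intCast_zmod_eq_zero_iff_dvd (y + z) q).mpr this
    simpa using this
  have hz : ((z : ℤ) : ZMod q) = -(y : ZMod q) := by
    linear_combination hyz0
  -- reduce the two cofactors mod `q`
  have hα' : ((α : ℤ) : ZMod q) ^ p = (p : ZMod q) * (y : ZMod q) ^ (p - 1) := by
    have e := sgPhi_map (Int.castRingHom (ZMod q)) p y z
    rw [hα] at e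
    simp only [eq_intCast, Int.cast_pow] at e
    rw [e, hz, sgPhi_neg_self]
  have hγ' : ((γ : ℤ) : ZMod q) ^ p = (y : ZMod q) ^ (p - 1) := by
    have e := sgPhi_map (Int.castRingHom (ZMod q)) p x y
    rw [hγ] at e
    simp only [eq_intCast, Int.cast_pow] at e
    rw [e, hx0, sgPhi_zero_left hodd]
  have hy0 : ((y : ℤ) : ZMod q) ≠ 0 := fun h0 =>
    hqy ((ZMod.intCast_zmod_eq_zero_iff_dvd y q).mp h0)
  have hγ0 : ((γ : ℤ) : ZMod q) ^ p ≠ 0 := by
    rw [hγ']; exact pow_ne_zero _ hy0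
  apply h2 ((α : ZMod q) * ((γ : ℤ) : ZMod q)⁻¹)
  rw [mul_pow, inv_pow, hα', hγ']
  rw [hγ'] at hγ0
  field_simp

/-- **Sophie Germain's theorem** (Case I of Fermat's Last Theorem for the exponent `p`,
given an auxiliary prime `q`). -/
theorem caseI_sophieGermain {p q : ℕ} (hp : p.Prime) (hp2 : p ≠ 2) (hq : q.Prime)
    (h1 : ∀ x y z : ZMod q, x ^ p + y ^ p + z ^ p = 0 → x * y * z = 0)
    (h2 : ∀ x : ZMod q, x ^ p ≠ (p : ZMod q))
    (a b c : ℤ) (hcop : IsCoprime a b) (hndvd : ¬ (p : ℤ) ∣ a * b * c) :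
    a ^ p + b ^ p ≠ c ^ p := by
  intro H
  have : Fact q.Prime := ⟨hq⟩
  have hodd : Odd p := hp.odd_of_ne_two hp2
  have hpa : ¬ (p : ℤ) ∣ a := fun h => hndvd (Dvd.dvd.mul_right (Dvd.dvd.mul_right h _) _)
  have hpb : ¬ (p : ℤ) ∣ b := fun h => hndvd (Dvd.dvd.mul_right (Dvd.dvd.mul_left h _) _)
  have hpc : ¬ (p : ℤ) ∣ -c := fun h => hndvd (Dvd.dvd.mul_left ((dvd_neg).mp h) _)
  have h0 : a ^ p + b ^ p + (-c) ^ p = 0 := by rw [hodd.neg_pow]; linarith
  -- pairwise coprimality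
  have hbc : IsCoprime b (-c) := by
    apply sg_isCoprime_of_forall_prime_not_dvd
    intro r hr hrb hrc
    have hrp : Prime (r : ℤ) := Nat.prime_iff_prime_int.mp hr
    have hrc' : (r : ℤ) ∣ c := (dvd_neg).mp hrc
    have : (r : ℤ) ∣ a ^ p := by
      have e : a ^ p = c ^ p - b ^ p := by linarith
      rw [e]
      exact dvd_sub (dvd_pow hrc' hp.ne_zero) (dvd_pow hrb hp.ne_zero)
    exact sg_prime_not_dvd_of_isCoprime hcop hr (hrp.dvd_of_dvd_pow this) hrb
  have hca : IsCoprime (-c) a := by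
    apply sg_isCoprime_of_forall_prime_not_dvd
    intro r hr hrc hra
    have hrp : Prime (r : ℤ) := Nat.prime_iff_prime_int.mp hr
    have hrc' : (r : ℤ) ∣ c := (dvd_neg).mp hrc
    have : (r : ℤ) ∣ b ^ p := by
      have e : b ^ p = c ^ p - a ^ p := by linarith
      rw [e]
      exact dvd_sub (dvd_pow hrc' hp.ne_zero) (dvd_pow hra hp.ne_zero)
    exact sg_prime_not_dvd_of_isCoprime hcop hr hra (hrp.dvd_of_dvd_pow this)
  -- `q` divides one of `a, b, -c`
  have hmod : ((a : ℤ) : ZMod q) ^ p + (b : ZMod q) ^ p + ((-c : ℤ) : ZMod q) ^ p = 0 := by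
    have := congrArg (Int.cast : ℤ → ZMod q) h0
    push_cast at this
    push_cast
    exact this
  have hprod := h1 _ _ _ hmod
  rcases mul_eq_zero.mp hprod with hab | hc'
  · rcases mul_eq_zero.mp hab with ha' | hb'
    · exact sophieGermain_core hp hp2 hq h1 h2 h0 hcop hbc hca hpa hpb hpc
        ((ZMod.intCast_zmod_eq_zero_iff_dvd a q).mp ha')
    · have h0' : b ^ p + (-c) ^ p + a ^ p = 0 := by linarith
      exact sophieGermain_core hp hp2 hq h1 h2 h0' hbc hca hcop hpb hpc hpa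
        ((ZMod.intCast_zmod_eq_zero_iff_dvd b q).mp hb')
  · have h0' : (-c) ^ p + a ^ p + b ^ p = 0 := by linarith
    exact sophieGermain_core hp hp2 hq h1 h2 h0' hca hcop hbc hpc hpa hpb
      ((ZMod.intCast_zmod_eq_zero_iff_dvd (-c) q).mp hc')

end Fermat.Agent.Kummer

namespace Fermat.Agent.Kummer

/-- Criterion for the first hypothesis of Sophie Germain's theorem: the nonzero `p`-th powers
lie in a finite set `S` no three elements of which sum to zero. -/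
lemma sg_h1_of_powers {p q : ℕ} (S : Finset (ZMod q))
    (hS : ∀ x : ZMod q, x = 0 ∨ x ^ p ∈ S)
    (hsum : ∀ u ∈ S, ∀ v ∈ S, ∀ w ∈ S, u + v + w ≠ 0) :
    ∀ x y z : ZMod q, x ^ p + y ^ p + z ^ p = 0 → x * y * z = 0 := by
  intro x y z h
  rcases hS x with hx | hx
  · simp [hx]
  rcases hS y with hy | hy
  · simp [hy]
  rcases hS z with hz | hz
  · simp [hz]
  exact absurd h (hsum _ hx _ hy _ hz)

set_option maxRecDepth 100000 in
theorem caseI_5 (a b c : ℤ) (hcop : IsCoprime a b) (hndvd : ¬ ((5 : ℕ) : ℤ) ∣ a * b * c) :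
    a ^ 5 + b ^ 5 ≠ c ^ 5 :=
  caseI_sophieGermain (p := 5) (q := 11) (by norm_num) (by norm_num) (by norm_num)
    (sg_h1_of_powers ({1, 10} : Finset (ZMod 11)) (by decide) (by decide)) (by decide)
    a b c hcop hndvd

set_option maxRecDepth 100000 in
theorem caseI_7 (a b c : ℤ) (hcop : IsCoprime a b) (hndvd : ¬ ((7 : ℕ) : ℤ) ∣ a * b * c) :
    a ^ 7 + b ^ 7 ≠ c ^ 7 :=
  caseI_sophieGermain (p := 7) (q := 29) (by norm_num) (by norm_num) (by norm_num)
    (sg_h1_of_powers ({1, 28, 12, 17} : Finset (ZMod 29)) (by decide) (by decide)) (by decide)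
    a b c hcop hndvd

set_option maxRecDepth 100000 in
theorem caseI_11 (a b c : ℤ) (hcop : IsCoprime a b) (hndvd : ¬ ((11 : ℕ) : ℤ) ∣ a * b * c) :
    a ^ 11 + b ^ 11 ≠ c ^ 11 :=
  caseI_sophieGermain (p := 11) (q := 23) (by norm_num) (by norm_num) (by norm_num)
    (sg_h1_of_powers ({1, 22} : Finset (ZMod 23)) (by decide) (by decide)) (by decide)
    a b c hcop hndvd

set_option maxRecDepth 100000 in
theorem caseI_13 (a b c : ℤ) (hcop : IsCoprime a b) (hndvd : ¬ ((13 : ℕ) : ℤ) ∣ a * b * c) :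
    a ^ 13 + b ^ 13 ≠ c ^ 13 :=
  caseI_sophieGermain (p := 13) (q := 53) (by norm_num) (by norm_num) (by norm_num)
    (sg_h1_of_powers ({1, 52, 23, 30} : Finset (ZMod 53)) (by decide) (by decide)) (by decide)
    a b c hcop hndvd

end Fermat.Agent.Kummer
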