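import Mathlib

/-!
# Case II of Fermat's Last Theorem: Kummer's descent in an abstract "cyclotomic PID"

`IsKummerSetup R p ζ` packages what is needed about `R = ℤ[ζ_p]`:
`ζ - 1` prime, `p ~ (ζ - 1)^(p-1)`, residue field `𝔽_p`, and Kummer's lemma on units.
The ring `R` is assumed to be a principal ideal domain.
-/

set_option linter.unusedSectionVars false
set_option linter.style.haveILetI false
set_option linter.deprecated false
set_option linter.unusedVariables false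

namespace Fermat.Agent.Kummer.CaseII

open Finset Polynomial

structure IsKummerSetup (R : Type*) [CommRing R] (p : ℕ) (ζ : R) : Prop where
  prime : p.Prime
  ne_two : p ≠ 2
  prim : IsPrimitiveRoot ζ p
  prime_lam : Prime (ζ - 1)
  assoc_p : Associated ((ζ - 1) ^ (p - 1)) (p : R)
  exists_int : ∀ x : R, ∃ a : ℤ, (ζ - 1) ∣ x - a
  lam_dvd_int : ∀ n : ℤ, (ζ - 1) ∣ (n : R) → (p : ℤ) ∣ n
  kummer : ∀ (u : Rˣ) (a : ℤ), (p : R) ∣ (u : R) - a → ∃ v : Rˣ, u = v ^ p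

def HasSol (R : Type*) [CommRing R] (p : ℕ) (ζ : R) (m : ℕ) : Prop :=
  ∃ (x y z : R) (η : Rˣ), ¬ (ζ - 1) ∣ x ∧ ¬ (ζ - 1) ∣ y ∧ ¬ (ζ - 1) ∣ z ∧ IsCoprime x y ∧
    x ^ p + y ^ p = η * (ζ - 1) ^ (p * m) * z ^ p

variable {R : Type*} [CommRing R] [IsDomain R] {p : ℕ} {ζ : R}

namespace IsKummerSetup

variable (D : IsKummerSetup R p ζ)
include D

omit [IsDomain R] in
lemma two_lt : 2 < p := lt_of_le_of_ne D.prime.two_le (Ne.symm D.ne_two)

omit [IsDomain R] in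
lemma odd : Odd p := D.prime.odd_of_ne_two D.ne_two

lemma lam_dvd_p : (ζ - 1) ∣ (p : R) := by
  have h : (ζ - 1) ∣ (ζ - 1) ^ (p - 1) := dvd_pow_self _ (by have := D.two_lt; omega)
  exact h.trans D.assoc_p.dvd

omit [IsDomain R] in
lemma p_dvd_lam_pow {n : ℕ} (hn : p - 1 ≤ n) : (p : R) ∣ (ζ - 1) ^ n :=
  D.assoc_p.symm.dvd.trans (pow_dvd_pow _ hn)

omit [IsDomain R] in
lemma lam_ne_zero : ζ - 1 ≠ 0 := D.prime_lam.ne_zero

lemma lam_dvd_intCast_iff (n : ℤ) : (ζ - 1) ∣ (n : R) ↔ (p : ℤ) ∣ n := by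
  refine ⟨D.lam_dvd_int n, fun ⟨k, hk⟩ => ?_⟩
  rw [hk]
  push_cast
  exact Dvd.dvd.mul_right D.lam_dvd_p _

omit [IsDomain R] in
lemma zeta_pow : ζ ^ p = 1 := D.prim.pow_eq_one

lemma one_mem : (1 : R) ∈ nthRootsFinset p (1 : R) := by
  rw [mem_nthRootsFinset D.prime.pos]; simp

lemma zeta_mem : ζ ∈ nthRootsFinset p (1 : R) := by
  rw [mem_nthRootsFinset D.prime.pos]; exact D.zeta_pow

lemma zeta_pow_mem (k : ℕ) : ζ ^ k ∈ nthRootsFinset p (1 : R) := by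
  rw [mem_nthRootsFinset D.prime.pos, ← pow_mul, mul_comm, pow_mul, D.zeta_pow, one_pow]

lemma lam_dvd_sub {μ ν : R} (hμ : μ ∈ nthRootsFinset p (1 : R))
    (hν : ν ∈ nthRootsFinset p (1 : R)) : (ζ - 1) ∣ μ - ν :=
  D.prim.sub_one_dvd_sub D.prime hμ hν

lemma assoc_sub {μ ν : R} (hμ : μ ∈ nthRootsFinset p (1 : R))
    (hν : ν ∈ nthRootsFinset p (1 : R)) (h : μ ≠ ν) : Associated (ζ - 1) (μ - ν) :=
  D.prim.nthRootsFinset_pairwise_associated_sub_one_sub_of_prime D.prime hμ hν h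

/-- Every `p`-th power is congruent to a rational integer mod `p`. -/
lemma exists_int_pow (w : R) : ∃ a : ℤ, (p : R) ∣ w ^ p - a := by
  obtain ⟨a, ha⟩ := D.exists_int w
  refine ⟨a ^ p, ?_⟩
  have h1 : w ^ p - ((a ^ p : ℤ) : R) = ∏ μ ∈ nthRootsFinset p (1 : R), (w - μ * a) := by
    push_cast
    exact D.prim.pow_sub_pow_eq_prod_sub_mul w (a : R) D.prime.pos
  have h2 : (ζ - 1) ^ p ∣ ∏ μ ∈ nthRootsFinset p (1 : R), (w - μ * a) := by
    have : ∏ _μ ∈ nthRootsFinset p (1 : R), (ζ - 1) ∣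
        ∏ μ ∈ nthRootsFinset p (1 : R), (w - μ * a) := by
      refine Finset.prod_dvd_prod_of_dvd _ _ fun μ hμ => ?_
      have h3 : w - μ * a = (w - a) + (1 - μ) * a := by ring
      rw [h3]
      exact dvd_add ha (Dvd.dvd.mul_right (D.lam_dvd_sub D.one_mem hμ) _)
    rwa [Finset.prod_const, D.prim.card_nthRootsFinset] at this
  rw [h1]
  exact (D.p_dvd_lam_pow (by omega)).trans h2

/-- `1 + ζ` is a unit. -/
lemma isUnit_one_add_zeta : IsUnit (1 + ζ) := by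
  have h := D.prim.geom_sum_isUnit D.prime.two_le
    (j := 2) ((Nat.coprime_primes Nat.prime_two D.prime).mpr (Ne.symm D.ne_two))
  simpa [Finset.sum_range_succ] using h

/-- The geometric sum `1 + ζ + ... + ζ^(k-1)` is congruent to `k` modulo `ζ - 1`. -/
lemma lam_dvd_geom_sum_sub (k : ℕ) : (ζ - 1) ∣ (∑ i ∈ range k, ζ ^ i) - (k : R) := by
  have : (∑ i ∈ range k, ζ ^ i) - (k : R) = ∑ i ∈ range k, (ζ ^ i - 1) := by
    simp [Finset.sum_sub_distrib]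
  rw [this]
  refine Finset.dvd_sum fun i _ => ?_
  simpa using sub_dvd_pow_sub_pow ζ 1 i

/-- Step 1: if `λ` divides the product, it divides every factor. -/
lemma lam_dvd_factor {x y : R} (h : (ζ - 1) ∣ x ^ p + y ^ p) {μ : R}
    (hμ : μ ∈ nthRootsFinset p (1 : R)) : (ζ - 1) ∣ x + μ * y := by
  rw [D.prim.pow_add_pow_eq_prod_add_mul x y D.odd] at h
  obtain ⟨ν, hν, hdvd⟩ := (D.prime_lam.dvd_finset_prod_iff _).mp h
  have : x + μ * y = (x + ν * y) + (μ - ν) * y := by ring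
  rw [this]
  exact dvd_add hdvd (Dvd.dvd.mul_right (D.lam_dvd_sub hμ hν) _)

/-- Step 3: after multiplying `y` by a root of unity, `λ ^ 2 ∣ x + y`. -/
lemma exists_sq_dvd {x y : R} (hy : ¬ (ζ - 1) ∣ y) (h : (ζ - 1) ∣ x ^ p + y ^ p) :
    ∃ k : ℕ, (ζ - 1) ^ 2 ∣ x + ζ ^ k * y := by
  obtain ⟨s, hs⟩ : (ζ - 1) ∣ x + y := by simpa using D.lam_dvd_factor h D.one_mem
  obtain ⟨a, ha⟩ := D.exists_int s
  obtain ⟨b, hb⟩ := D.exists_int y
  have hpb : ¬ (p : ℤ) ∣ b := fun hpb => hy <| by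
    have := (D.lam_dvd_intCast_iff b).mpr hpb
    simpa using dvd_add hb this
  haveI : Fact p.Prime := ⟨D.prime⟩
  have hb0 : (b : ZMod p) ≠ 0 := by
    rwa [Ne, ZMod.intCast_zmod_eq_zero_iff_dvd]
  set k : ℕ := ((-(a : ZMod p)) * (b : ZMod p)⁻¹).val with hk
  have hkab : (p : ℤ) ∣ a + k * b := by
    rw [← ZMod.intCast_zmod_eq_zero_iff_dvd]
    push_cast
    rw [hk, ZMod.natCast_val, ZMod.cast_id', id, mul_assoc, inv_mul_cancel₀ hb0]
    ring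
  refine ⟨k, ?_⟩
  have key : x + ζ ^ k * y = (ζ - 1) * (s + (∑ i ∈ range k, ζ ^ i) * y) := by
    have h1 : (ζ - 1) * ∑ i ∈ range k, ζ ^ i = ζ ^ k - 1 := mul_geom_sum ζ k
    have : x + ζ ^ k * y = (x + y) + (ζ ^ k - 1) * y := by ring
    rw [this, hs, ← h1]; ring
  rw [key, pow_two]
  refine mul_dvd_mul_left _ ?_
  have : s + (∑ i ∈ range k, ζ ^ i) * y
      = (s - a) + ((∑ i ∈ range k, ζ ^ i) - k) * y + (k : R) * (y - b) + ((a + k * b : ℤ) : R) := by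
    push_cast; ring
  rw [this]
  refine dvd_add (dvd_add (dvd_add ha ?_) ?_) ((D.lam_dvd_intCast_iff _).mpr hkab)
  · exact Dvd.dvd.mul_right (D.lam_dvd_geom_sum_sub k) _
  · exact Dvd.dvd.mul_left hb _


/-- Step 5: if `λ ^ 2 ∣ x + y`, then `λ ^ 2 ∤ x + μ y` for `μ ≠ 1`. -/
lemma not_sq_dvd {x y : R} (hy : ¬ (ζ - 1) ∣ y) (hsq : (ζ - 1) ^ 2 ∣ x + y) {μ : R}
    (hμ : μ ∈ nthRootsFinset p (1 : R)) (hμ1 : μ ≠ 1) : ¬ (ζ - 1) ^ 2 ∣ x + μ * y := by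
  intro h
  obtain ⟨u, hu⟩ := D.assoc_sub hμ D.one_mem hμ1
  have h1 : (ζ - 1) ^ 2 ∣ (ζ - 1) * (u * y) := by
    have : (ζ - 1) * (u * y) = (x + μ * y) - (x + y) := by
      rw [← mul_assoc, hu]; ring
    rw [this]
    exact dvd_sub h hsq
  rw [pow_two, mul_dvd_mul_iff_left D.lam_ne_zero] at h1
  exact hy ((Units.dvd_mul_left (u := u) (a := ζ - 1) (b := y)).mp h1)

/-- Step 7: the cofactors of two distinct factors are coprime. -/
lemma isCoprime_cofactor {x y : R} (hcop : IsCoprime x y) {μ ν fμ fν : R}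
    (hμ : μ ∈ nthRootsFinset p (1 : R)) (hν : ν ∈ nthRootsFinset p (1 : R)) (hμν : μ ≠ ν)
    (hfμ : x + μ * y = (ζ - 1) * fμ) (hfν : x + ν * y = (ζ - 1) * fν) : IsCoprime fμ fν := by
  obtain ⟨u, hu⟩ := D.assoc_sub hμ hν hμν
  obtain ⟨a, b, hab⟩ := hcop
  have h1 : fμ - fν = u * y := by
    apply mul_left_cancel₀ D.lam_ne_zero
    rw [mul_sub, ← hfμ, ← hfν, ← mul_assoc, hu]; ring
  have h2 : ν * fμ - μ * fν = - (u * x) := by
    apply mul_left_cancel₀ D.lam_ne_zero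
    have e1 : (ζ - 1) * (ν * fμ - μ * fν) = ν * ((ζ - 1) * fμ) - μ * ((ζ - 1) * fν) := by ring
    rw [e1, ← hfμ, ← hfν, mul_neg, ← mul_assoc, hu]; ring
  refine ⟨(-a * ν + b) * (↑u⁻¹ : R), (a * μ - b) * (↑u⁻¹ : R), ?_⟩
  have h3 : (-a * ν + b) * (↑u⁻¹ : R) * fμ + (a * μ - b) * (↑u⁻¹ : R) * fν
      = (↑u⁻¹ : R) * (-a * (ν * fμ - μ * fν) + b * (fμ - fν)) := by ring
  rw [h3, h1, h2]
  have h4 : (↑u⁻¹ : R) * (-a * -(↑u * x) + b * (↑u * y)) = (↑u⁻¹ * ↑u : R) * (a * x + b * y) := by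
    ring
  rw [h4, hab, Units.inv_mul, one_mul]


variable [IsPrincipalIdealRing R]

/-- The heart of the descent, for a solution normalised so that `λ ^ 2 ∣ x + y`. -/
theorem descent_aux {m : ℕ} (hm : 1 ≤ m) {x y z : R} {η : Rˣ}
    (hy : ¬ (ζ - 1) ∣ y) (hz : ¬ (ζ - 1) ∣ z) (hcop : IsCoprime x y)
    (heq : x ^ p + y ^ p = η * (ζ - 1) ^ (p * m) * z ^ p) (hsq : (ζ - 1) ^ 2 ∣ x + y) :
    2 ≤ m ∧ HasSol R p ζ (m - 1) := by
  classical
  have hp0 : 0 < p := D.prime.pos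
  have hp2 := D.two_lt
  have hlam : (ζ - 1) ∣ x ^ p + y ^ p := by
    rw [heq]
    exact Dvd.dvd.mul_right (Dvd.dvd.mul_left (dvd_pow_self _ (by positivity)) _) _
  -- the cofactors
  have hfac : ∀ μ ∈ nthRootsFinset p (1 : R), ∃ f : R, x + μ * y = (ζ - 1) * f :=
    fun μ hμ => D.lam_dvd_factor hlam hμ
  choose! f hf using hfac
  have hf1 : x + y = (ζ - 1) * f 1 := by simpa using hf 1 D.one_mem
  -- `λ ∤ f μ` for `μ ≠ 1`
  have hnd : ∀ μ ∈ (nthRootsFinset p (1 : R)).erase 1, ¬ (ζ - 1) ∣ f μ := by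
    intro μ hμ hdvd
    rw [Finset.mem_erase] at hμ
    refine D.not_sq_dvd hy hsq hμ.2 hμ.1 ?_
    rw [hf μ hμ.2, pow_two]
    exact mul_dvd_mul_left _ hdvd
  -- `λ ∣ f 1`
  have hd1 : (ζ - 1) ∣ f 1 := by
    rw [hf1, pow_two] at hsq
    exact (mul_dvd_mul_iff_left D.lam_ne_zero).mp hsq
  -- the product of the cofactors
  have hprod : ∏ μ ∈ nthRootsFinset p (1 : R), f μ = η * (ζ - 1) ^ (p * (m - 1)) * z ^ p := by
    have h1 : x ^ p + y ^ p = (ζ - 1) ^ p * ∏ μ ∈ nthRootsFinset p (1 : R), f μ := by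
      rw [D.prim.pow_add_pow_eq_prod_add_mul x y D.odd, Finset.prod_congr rfl hf,
        Finset.prod_mul_distrib, Finset.prod_const, D.prim.card_nthRootsFinset]
    rw [heq] at h1
    apply mul_left_cancel₀ (pow_ne_zero p D.lam_ne_zero)
    rw [← h1]
    have : p * m = p + p * (m - 1) := by
      obtain ⟨m', rfl⟩ : ∃ m', m = m' + 1 := ⟨m - 1, by omega⟩
      simp; ring
    rw [this, pow_add]; ring
  set F := ∏ μ ∈ (nthRootsFinset p (1 : R)).erase 1, f μ with hF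
  have hprod' : f 1 * F = η * (ζ - 1) ^ (p * (m - 1)) * z ^ p := by
    rw [← hprod, hF, Finset.mul_prod_erase _ _ D.one_mem]
  have hFnd : ¬ (ζ - 1) ∣ F := by
    rw [hF, D.prime_lam.dvd_finset_prod_iff]
    rintro ⟨μ, hμ, hdvd⟩
    exact hnd μ hμ hdvd
  -- `f 1 = λ ^ (p (m - 1)) * g`
  obtain ⟨g, hg⟩ : (ζ - 1) ^ (p * (m - 1)) ∣ f 1 := by
    refine D.prime_lam.pow_dvd_of_dvd_mul_right _ hFnd ?_
    rw [hprod']
    exact Dvd.dvd.mul_right (Dvd.dvd.mul_left (dvd_refl _) _) _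
  have hgF : g * F = η * z ^ p := by
    apply mul_left_cancel₀ (pow_ne_zero (p * (m - 1)) D.lam_ne_zero)
    rw [← mul_assoc, ← hg, hprod']; ring
  have hgnd : ¬ (ζ - 1) ∣ g := by
    intro h
    have : (ζ - 1) ∣ (η : R) * z ^ p := by rw [← hgF]; exact Dvd.dvd.mul_right h _
    rw [Units.dvd_mul_left] at this
    exact hz (D.prime_lam.dvd_of_dvd_pow this)
  -- `2 ≤ m`
  have hm2 : 2 ≤ m := by
    by_contra hlt
    have hm1 : m = 1 := by omega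
    rw [hm1] at hg
    simp at hg
    exact hgnd (hg ▸ hd1)
  refine ⟨hm2, ?_⟩
  -- coprimality of cofactors
  have hcopf : ∀ μ ∈ nthRootsFinset p (1 : R), ∀ ν ∈ nthRootsFinset p (1 : R), μ ≠ ν →
      IsCoprime (f μ) (f ν) :=
    fun μ hμ ν hν hμν => D.isCoprime_cofactor hcop hμ hν hμν (hf μ hμ) (hf ν hν)
  have hcopg : ∀ μ ∈ (nthRootsFinset p (1 : R)).erase 1, IsCoprime g (f μ) := by
    intro μ hμ
    rw [Finset.mem_erase] at hμ
    have := hcopf 1 D.one_mem μ hμ.2 (Ne.symm hμ.1)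
    rw [hg] at this
    exact this.of_mul_left_right
  -- each cofactor is a `p`-th power up to a unit
  have hpow : ∀ μ ∈ (nthRootsFinset p (1 : R)).erase 1, ∃ ρ : R, Associated (ρ ^ p) (f μ) := by
    intro μ hμ
    have hμ' := Finset.mem_erase.mp hμ
    have h1 : f μ * (g * ∏ ν ∈ ((nthRootsFinset p (1 : R)).erase 1).erase μ, f ν) = η * z ^ p := by
      rw [← hgF, hF, ← Finset.mul_prod_erase _ _ hμ]; ring
    refine exists_associated_pow_of_associated_pow_mul (c := z)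
      (b := g * ∏ ν ∈ ((nthRootsFinset p (1 : R)).erase 1).erase μ, f ν) ?_ ?_
    · refine IsCoprime.mul_right (hcopg μ hμ).symm (IsCoprime.prod_right fun ν hν => ?_)
      rw [Finset.mem_erase, Finset.mem_erase] at hν
      exact hcopf μ hμ'.2 ν hν.2.2 (Ne.symm hν.1)
    · rw [h1]
      exact ⟨η, by ring⟩
  have hpowg : ∃ ρ : R, Associated (ρ ^ p) g := by
    refine exists_associated_pow_of_associated_pow_mul (c := z) (b := F) ?_ ?_
    · exact IsCoprime.prod_right fun ν hν => hcopg ν hν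
    · rw [hgF]
      exact ⟨η, by ring⟩
  -- the two roots `ζ` and `ζ⁻¹ = ζ ^ (p - 1)`
  have hζ1 : ζ ≠ 1 := D.prim.ne_one D.prime.one_lt
  have hζmem : ζ ∈ (nthRootsFinset p (1 : R)).erase 1 := Finset.mem_erase.mpr ⟨hζ1, D.zeta_mem⟩
  have hζinv : ζ * ζ ^ (p - 1) = 1 := by
    rw [← pow_succ', Nat.sub_add_cancel hp0, D.zeta_pow]
  have hζ'1 : ζ ^ (p - 1) ≠ 1 := by
    intro h
    rw [h, mul_one] at hζinv
    exact hζ1 hζinv
  have hζ'mem : ζ ^ (p - 1) ∈ (nthRootsFinset p (1 : R)).erase 1 :=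
    Finset.mem_erase.mpr ⟨hζ'1, D.zeta_pow_mem _⟩
  have hζζ' : ζ ≠ ζ ^ (p - 1) := by
    intro h
    have h2 : ζ ^ 2 = 1 := by rw [pow_two]; nth_rewrite 2 [h]; exact hζinv
    have := D.prim.dvd_of_pow_eq_one 2 h2
    have := Nat.le_of_dvd (by norm_num) this
    omega
  obtain ⟨ρ₁, u₁, hρ₁⟩ := hpow ζ hζmem
  obtain ⟨ρ₂, u₂, hρ₂⟩ := hpow (ζ ^ (p - 1)) hζ'mem
  obtain ⟨ρ₀, u₀, hρ₀⟩ := hpowg
  -- the linear relation
  have hrel : f ζ + ζ * f (ζ ^ (p - 1)) = (1 + ζ) * (ζ - 1) ^ (p * (m - 1)) * g := by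
    apply mul_left_cancel₀ D.lam_ne_zero
    have e1 : (ζ - 1) * (f ζ + ζ * f (ζ ^ (p - 1)))
        = (ζ - 1) * f ζ + ζ * ((ζ - 1) * f (ζ ^ (p - 1))) := by ring
    have e2 : (ζ - 1) * ((1 + ζ) * (ζ - 1) ^ (p * (m - 1)) * g)
        = (1 + ζ) * ((ζ - 1) * ((ζ - 1) ^ (p * (m - 1)) * g)) := by ring
    rw [e1, e2, ← hg, ← hf1, ← hf ζ D.zeta_mem, ← hf _ (D.zeta_pow_mem (p - 1))]
    have : x + ζ * y + ζ * (x + ζ ^ (p - 1) * y) = x + ζ * y + ζ * x + (ζ * ζ ^ (p - 1)) * y := by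
      ring
    rw [this, hζinv]; ring
  obtain ⟨w, hw⟩ := D.isUnit_one_add_zeta
  obtain ⟨ζu, hζu⟩ := D.prim.isUnit D.prime.ne_zero
  -- the new equation
  set η' : Rˣ := ζu * u₂ * u₁⁻¹ with hη'
  set η'' : Rˣ := w * u₀ * u₁⁻¹ with hη''
  have hnew : ρ₁ ^ p + η' * ρ₂ ^ p = η'' * (ζ - 1) ^ (p * (m - 1)) * ρ₀ ^ p := by
    have h1 : f ζ = ρ₁ ^ p * u₁ := hρ₁.symm
    have h2 : f (ζ ^ (p - 1)) = ρ₂ ^ p * u₂ := hρ₂.symm
    have h0 : g = ρ₀ ^ p * u₀ := hρ₀.symm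
    rw [h1, h2, h0, ← hw] at hrel
    have hu : (↑u₁ : R) * ↑u₁⁻¹ = 1 := Units.mul_inv u₁
    have e : ρ₁ ^ p + η' * ρ₂ ^ p
        = (ρ₁ ^ p * ↑u₁ + ζ * (ρ₂ ^ p * ↑u₂)) * ↑u₁⁻¹ := by
      rw [hη']
      push_cast
      rw [hζu]
      linear_combination (-(ρ₁ ^ p)) * hu
    rw [e, hrel, hη'']
    push_cast
    ring
  -- Kummer's lemma applies to `η'`
  have hpN : (p : R) ∣ (ζ - 1) ^ (p * (m - 1)) := D.p_dvd_lam_pow (by
    have : p * 1 ≤ p * (m - 1) := Nat.mul_le_mul_left p (by omega)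
    omega)
  have hpsum : (p : R) ∣ ρ₁ ^ p + η' * ρ₂ ^ p := by
    rw [hnew]
    exact Dvd.dvd.mul_right (Dvd.dvd.mul_left hpN _) _
  have hndρ₁ : ¬ (ζ - 1) ∣ ρ₁ := fun h => hnd ζ hζmem <| by
    rw [← hρ₁]
    exact Dvd.dvd.mul_right (dvd_pow h D.prime.ne_zero) _
  have hndρ₂ : ¬ (ζ - 1) ∣ ρ₂ := fun h => hnd _ hζ'mem <| by
    rw [← hρ₂]
    exact Dvd.dvd.mul_right (dvd_pow h D.prime.ne_zero) _
  have hndρ₀ : ¬ (ζ - 1) ∣ ρ₀ := fun h => hgnd <| by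
    rw [← hρ₀]
    exact Dvd.dvd.mul_right (dvd_pow h D.prime.ne_zero) _
  obtain ⟨A, hA⟩ := D.exists_int_pow ρ₁
  obtain ⟨B, hB⟩ := D.exists_int_pow ρ₂
  have hpB : ¬ (p : ℤ) ∣ B := by
    intro hpB
    have h1 : (p : R) ∣ (B : R) := by
      obtain ⟨c, hc⟩ := hpB
      exact ⟨c, by rw [hc]; push_cast; ring⟩
    have h2 : (p : R) ∣ ρ₂ ^ p := by simpa using dvd_add hB h1
    exact hndρ₂ (D.prime_lam.dvd_of_dvd_pow (D.lam_dvd_p.trans h2))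
  obtain ⟨B', hB'⟩ : ∃ B' : ℤ, (p : ℤ) ∣ B * B' - 1 := by
    have hpZ : Prime (p : ℤ) := Nat.prime_iff_prime_int.mp D.prime
    obtain ⟨a, b, hab⟩ := (hpZ.coprime_iff_not_dvd).mpr hpB
    exact ⟨b, ⟨-a, by linear_combination hab⟩⟩
  have hkum : (p : R) ∣ (η' : R) - ((-(A * B') : ℤ) : R) := by
    have hB'R : (p : R) ∣ (B : R) * B' - 1 := by
      obtain ⟨c, hc⟩ := hB'
      refine ⟨c, ?_⟩
      have := congrArg (Int.cast : ℤ → R) hc
      push_cast at this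
      exact this
    have : (η' : R) - ((-(A * B') : ℤ) : R)
        = (B' : R) * (ρ₁ ^ p + η' * ρ₂ ^ p) - (B' : R) * (ρ₁ ^ p - A)
          - (η' : R) * B' * (ρ₂ ^ p - B) - (η' : R) * ((B : R) * B' - 1) := by
      push_cast; ring
    rw [this]
    exact dvd_sub (dvd_sub (dvd_sub (Dvd.dvd.mul_left hpsum _) (Dvd.dvd.mul_left hA _))
      (Dvd.dvd.mul_left hB _)) (Dvd.dvd.mul_left hB'R _)
  obtain ⟨ε, hε⟩ := D.kummer η' _ hkum
  -- the new solution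
  refine ⟨ρ₁, ε * ρ₂, ρ₀, η'', hndρ₁, ?_, hndρ₀, ?_, ?_⟩
  · rwa [Units.dvd_mul_left]
  · have h1 := hcopf ζ D.zeta_mem _ (D.zeta_pow_mem (p - 1)) hζζ'
    rw [← hρ₁, ← hρ₂, isCoprime_mul_units_right u₁.isUnit u₂.isUnit,
      IsCoprime.pow_iff hp0 hp0] at h1
    exact (isCoprime_mul_unit_left_right ε.isUnit _ _).mpr h1
  · rw [mul_pow, ← hnew, hε]
    push_cast
    ring

/-- Replacing `y` by `ζ ^ k * y` we can always normalise a solution. -/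
theorem descent {m : ℕ} (hm : 1 ≤ m) (h : HasSol R p ζ m) :
    2 ≤ m ∧ HasSol R p ζ (m - 1) := by
  obtain ⟨x, y₀, z, η, hx, hy₀, hz, hcop₀, heq₀⟩ := h
  have hlam0 : (ζ - 1) ∣ x ^ p + y₀ ^ p := by
    rw [heq₀]
    have : 0 < p * m := Nat.mul_pos D.prime.pos hm
    exact Dvd.dvd.mul_right (Dvd.dvd.mul_left (dvd_pow_self _ this.ne') _) _
  obtain ⟨k, hk⟩ := D.exists_sq_dvd hy₀ hlam0
  have hζk : IsUnit (ζ ^ k) := (D.prim.isUnit D.prime.ne_zero).pow k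
  refine D.descent_aux hm (x := x) (y := ζ ^ k * y₀) (z := z) (η := η) ?_ hz ?_ ?_ hk
  · rwa [hζk.dvd_mul_left]
  · exact (isCoprime_mul_unit_left_right hζk x y₀).mpr hcop₀
  · rw [mul_pow, ← pow_mul, mul_comm k p, pow_mul, D.zeta_pow, one_pow, one_mul, heq₀]

/-- **Case II** (generalised form): there is no solution for any `m ≥ 1`. -/
theorem not_hasSol : ∀ m : ℕ, 1 ≤ m → ¬ HasSol R p ζ m := by
  intro m
  induction m using Nat.strong_induction_on with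
  | _ m ih =>
    intro hm h
    obtain ⟨hm2, h'⟩ := D.descent hm h
    exact ih (m - 1) (by omega) (by omega) h'

end IsKummerSetup

end Fermat.Agent.Kummer.CaseII
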