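import Mathlib
import Fermat.Agent.Kummer.CaseIIAbstract

/-!
# Case II of Fermat's Last Theorem for a prime `p` such that `ℤ[ζ_p]` is a PID and
Kummer's lemma holds.
-/

set_option linter.unusedSectionVars false
set_option linter.style.haveILetI false
set_option linter.deprecated false
set_option linter.unusedVariables false

namespace Fermat.Agent.Kummer

open NumberField Polynomial

namespace CaseII

variable {p : ℕ} [hp : Fact p.Prime] {K : Type*} [Field K] [NumberField K]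
  [hK : IsCyclotomicExtension {p} ℚ K]

/-- Every element of `𝓞 K` is congruent to a rational integer modulo `ζ - 1`. -/
lemma exists_int_sub_dvd {ζ : K} (hζ : IsPrimitiveRoot ζ p) (x : 𝓞 K) :
    ∃ a : ℤ, (hζ.toInteger - 1) ∣ x - (a : 𝓞 K) := by
  haveI : NeZero p := ⟨hp.out.ne_zero⟩
  obtain ⟨f, hf⟩ := hζ.integralPowerBasis.exists_eq_aeval' x
  rw [IsPrimitiveRoot.integralPowerBasis_gen] at hf
  refine ⟨f.eval 1, ?_⟩
  have h := Polynomial.sub_dvd_eval_sub hζ.toInteger 1 (f.map (algebraMap ℤ (𝓞 K)))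
  rw [Polynomial.eval_map, Polynomial.eval_map, ← Polynomial.aeval_def, ← hf] at h
  have h1 : Polynomial.eval₂ (algebraMap ℤ (𝓞 K)) 1 f = ((f.eval 1 : ℤ) : 𝓞 K) := by
    have := Polynomial.aeval_algebraMap_apply (𝓞 K) (1 : ℤ) f
    simpa [Polynomial.aeval_def] using this
  rwa [h1] at h


/-- The Kummer setup for `𝓞 K`. -/
lemma isKummerSetup (hp2 : p ≠ 2) {ζ : K} (hζ : IsPrimitiveRoot ζ p)
    (kummer : ∀ (u : (𝓞 K)ˣ) (a : ℤ), (p : 𝓞 K) ∣ (u : 𝓞 K) - a → ∃ v : (𝓞 K)ˣ, u = v ^ p) :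
    haveI : NeZero p := ⟨hp.out.ne_zero⟩
    IsKummerSetup (𝓞 K) p hζ.toInteger :=
  haveI : NeZero p := ⟨hp.out.ne_zero⟩
  { prime := hp.out
    ne_two := hp2
    prim := hζ.toInteger_isPrimitiveRoot
    prime_lam := hζ.zeta_sub_one_prime'
    assoc_p := IsCyclotomicExtension.Rat.associated_zeta_sub_one_pow_prime p hζ
    exists_int := exists_int_sub_dvd hζ
    lam_dvd_int := fun n h => (IsCyclotomicExtension.Rat.zeta_sub_one_dvd_intCast_iff' p hζ).mp h
    kummer := kummer }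

omit hp in
lemma isCoprime_right_of_eq {p : ℕ} (hp0 : 0 < p) {a b c : ℤ} (hcop : IsCoprime a b)
    (heq : a ^ p + b ^ p = c ^ p) : IsCoprime b c := by
  have h1 : IsCoprime (b ^ p) (a ^ p) := (IsCoprime.pow_iff hp0 hp0).mpr hcop.symm
  have h2 : IsCoprime (b ^ p) (a ^ p + b ^ p * 1) := h1.add_mul_left_right 1
  rw [mul_one, heq] at h2
  exact (IsCoprime.pow_iff hp0 hp0).mp h2

/-- Case II when `p ∣ c`. -/
theorem caseII_aux (hp2 : p ≠ 2) [IsPrincipalIdealRing (𝓞 K)]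
    (kummer : ∀ (u : (𝓞 K)ˣ) (a : ℤ), (p : 𝓞 K) ∣ (u : 𝓞 K) - a → ∃ v : (𝓞 K)ˣ, u = v ^ p)
    {a b c : ℤ} (hc0 : c ≠ 0) (hcop : IsCoprime a b) (hpc : (p : ℤ) ∣ c) :
    a ^ p + b ^ p ≠ c ^ p := by
  intro heq
  haveI : NeZero p := ⟨hp.out.ne_zero⟩
  have hpZ : Prime (p : ℤ) := Nat.prime_iff_prime_int.mp hp.out
  have hp0 : 0 < p := hp.out.pos
  have hbc : IsCoprime b c := isCoprime_right_of_eq hp0 hcop heq
  have hac : IsCoprime a c := isCoprime_right_of_eq hp0 hcop.symm (by rw [add_comm]; exact heq)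
  have hpa : ¬ (p : ℤ) ∣ a := fun h => hpZ.not_unit (hac.isUnit_of_dvd' h hpc)
  have hpb : ¬ (p : ℤ) ∣ b := fun h => hpZ.not_unit (hbc.isUnit_of_dvd' h hpc)
  have hfin : FiniteMultiplicity (p : ℤ) c :=
    Int.finiteMultiplicity_iff.mpr ⟨by simpa using hp.out.ne_one, hc0⟩
  obtain ⟨c', hc, hc'⟩ := hfin.exists_eq_pow_mul_and_not_dvd
  set k := multiplicity (p : ℤ) c with hk
  have hk1 : 1 ≤ k := by
    rcases Nat.eq_zero_or_pos k with h0 | h0
    · exfalso
      rw [h0, pow_zero, one_mul] at hc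
      exact hc' (hc ▸ hpc)
    · exact h0
  have D := isKummerSetup hp2 (IsCyclotomicExtension.zeta_spec p ℚ K) kummer
  obtain ⟨u, hu⟩ := D.assoc_p
  set ζ := (IsCyclotomicExtension.zeta_spec p ℚ K).toInteger with hζ
  refine D.not_hasSol ((p - 1) * k) (Nat.mul_pos (by have := D.two_lt; omega) hk1)
    ⟨(a : 𝓞 K), (b : 𝓞 K), (c' : 𝓞 K), u ^ (k * p), ?_, ?_, ?_, ?_, ?_⟩
  · rwa [D.lam_dvd_intCast_iff]
  · rwa [D.lam_dvd_intCast_iff]
  · rwa [D.lam_dvd_intCast_iff]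
  · exact hcop.intCast
  · have h1 := congrArg (Int.cast : ℤ → 𝓞 K) heq
    push_cast at h1
    rw [h1, hc]
    push_cast
    rw [← hu]
    have e : p * ((p - 1) * k) = (p - 1) * (k * p) := by ring
    rw [e, pow_mul (ζ - 1) (p - 1) (k * p)]
    ring

end CaseII

open CaseII in
/-- **Case II of Fermat's Last Theorem** for an odd prime `p` such that the ring of integers of
the `p`-th cyclotomic field is a PID and satisfies Kummer's lemma. -/
theorem caseII {p : ℕ} [hp : Fact p.Prime] (hp2 : p ≠ 2) {K : Type*} [Field K] [NumberField K]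
    [IsCyclotomicExtension {p} ℚ K] [IsPrincipalIdealRing (𝓞 K)]
    (kummer : ∀ (u : (𝓞 K)ˣ) (a : ℤ), (p : 𝓞 K) ∣ (u : 𝓞 K) - a → ∃ v : (𝓞 K)ˣ, u = v ^ p)
    (a b c : ℤ) (h0 : a * b * c ≠ 0) (hcop : IsCoprime a b) (hdvd : (p : ℤ) ∣ a * b * c) :
    a ^ p + b ^ p ≠ c ^ p := by
  intro heq
  have hpZ : Prime (p : ℤ) := Nat.prime_iff_prime_int.mp hp.out
  have hp0 : 0 < p := hp.out.pos
  have hodd : Odd p := hp.out.odd_of_ne_two hp2
  have ha0 : a ≠ 0 := fun h => h0 (by simp [h])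
  have hb0 : b ≠ 0 := fun h => h0 (by simp [h])
  have hc0 : c ≠ 0 := fun h => h0 (by simp [h])
  have hbc : IsCoprime b c := isCoprime_right_of_eq hp0 hcop heq
  have hac : IsCoprime a c := isCoprime_right_of_eq hp0 hcop.symm (by rw [add_comm]; exact heq)
  rcases hpZ.dvd_or_dvd hdvd with h | hc
  · rcases hpZ.dvd_or_dvd h with ha | hb
    · -- `c ^ p + (-b) ^ p = a ^ p`
      refine caseII_aux (K := K) hp2 kummer (a := c) (b := -b) (c := a) ha0 ?_ ha ?_
      · exact hbc.symm.neg_right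
      · rw [hodd.neg_pow]; linarith
    · -- `c ^ p + (-a) ^ p = b ^ p`
      refine caseII_aux (K := K) hp2 kummer (a := c) (b := -a) (c := b) hb0 ?_ hb ?_
      · exact hac.symm.neg_right
      · rw [hodd.neg_pow]; linarith
  · exact caseII_aux (K := K) hp2 kummer hc0 hcop hc heq

end Fermat.Agent.Kummer
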