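import Mathlib

/-!
# Kummer project, K3: abstract linear-algebra lemma

If a commutative group `E` is generated by `m` elements, `L : E → S` is a homomorphism into an
`𝔽_p`-vector space and `m` elements of `E` have linearly independent images, then `L` is injective
modulo `p`-th powers: `L u = 0 → u ∈ E ^ p`.
-/

namespace Fermat.Agent.Kummer.KL

open Module

/-- Abstract form of Kummer's lemma: a group generated by `card ι` elements, mapped by a
homomorphism `L` to an `𝔽_p`-vector space, such that `card κ ≥ card ι` elements have linearly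
independent images. Then every element of the kernel of `L` is a `p`-th power. -/
theorem exists_pow_eq_of_map_eq_zero {E : Type*} [CommGroup E] {p : ℕ} [Fact p.Prime]
    {S : Type*} [AddCommGroup S] [Module (ZMod p) S]
    (L : Additive E →+ S) {ι κ : Type*} [Fintype ι] [Fintype κ]
    (γ : ι → E) (hγ : ∀ u : E, ∃ e : ι → ℤ, u = ∏ i, γ i ^ e i)
    (g : κ → E) (hg : LinearIndependent (ZMod p) (fun k => L (Additive.ofMul (g k))))
    (hcard : Fintype.card ι ≤ Fintype.card κ)
    (u : E) (hu : L (Additive.ofMul u) = 0) : ∃ v : E, u = v ^ p := by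
  classical
  -- the linear map `Λ : 𝔽_p^ι → S`
  let Λ : (ι → ZMod p) →ₗ[ZMod p] S :=
    Fintype.linearCombination (ZMod p) (fun i => L (Additive.ofMul (γ i)))
  have hΛ : ∀ e : ι → ℤ, L (Additive.ofMul (∏ i, γ i ^ e i)) = Λ (fun i => (e i : ZMod p)) := by
    intro e
    simp only [Λ, Fintype.linearCombination_apply, ofMul_prod, map_sum, ofMul_zpow, map_zsmul]
    refine Finset.sum_congr rfl fun i _ => ?_
    rw [Int.cast_smul_eq_zsmul]
  -- every `L (g k)` lies in the range of `Λ`
  have hrange : ∀ k, L (Additive.ofMul (g k)) ∈ LinearMap.range Λ := by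
    intro k
    obtain ⟨e, he⟩ := hγ (g k)
    exact ⟨fun i => (e i : ZMod p), by rw [← hΛ, ← he]⟩
  -- hence the range has dimension at least `card κ`
  have h1 : Fintype.card κ ≤ finrank (ZMod p) (LinearMap.range Λ) := by
    have hli : LinearIndependent (ZMod p)
        (fun k => (⟨L (Additive.ofMul (g k)), hrange k⟩ : LinearMap.range Λ)) := by
      apply LinearIndependent.of_comp (LinearMap.range Λ).subtype
      exact hg
    exact hli.fintype_card_le_finrank
  have h2 : finrank (ZMod p) (LinearMap.range Λ) + finrank (ZMod p) (LinearMap.ker Λ)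
      = Fintype.card ι := by
    rw [LinearMap.finrank_range_add_finrank_ker, Module.finrank_fintype_fun_eq_card]
  have hker : finrank (ZMod p) (LinearMap.ker Λ) = 0 := by omega
  have hinj : LinearMap.ker Λ = ⊥ := Submodule.finrank_eq_zero.mp hker
  -- conclude
  obtain ⟨e, he⟩ := hγ u
  have hz : (fun i => (e i : ZMod p)) = 0 := by
    have : (fun i => (e i : ZMod p)) ∈ LinearMap.ker Λ := by
      rw [LinearMap.mem_ker, ← hΛ, ← he, hu]
    rwa [hinj, Submodule.mem_bot] at this
  have hdvd : ∀ i, (p : ℤ) ∣ e i := fun i =>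
    (ZMod.intCast_zmod_eq_zero_iff_dvd (e i) p).mp (congrFun hz i)
  choose e' he' using hdvd
  refine ⟨∏ i, γ i ^ e' i, ?_⟩
  rw [he, ← Finset.prod_pow]
  refine Finset.prod_congr rfl fun i _ => ?_
  rw [he' i, ← zpow_natCast, ← zpow_mul, mul_comm]

end Fermat.Agent.Kummer.KL
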