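import Mathlib
import Fermat.Agent.Kummer.KummerAbstract

namespace Fermat.Agent.Kummer.KL

open NumberField Polynomial

section dlog

variable (p : ℕ) [hp : Fact p.Prime]

/-- The truncated polynomial ring `S = 𝔽_p[t]/(t^(p-2))`. -/
abbrev TruncRing : Type := AdjoinRoot ((X : (ZMod p)[X]) ^ (p - 2))

/-- The class of `t` in `TruncRing p`. -/
noncomputable def tt : TruncRing p := AdjoinRoot.root _

lemma tt_pow : (tt p) ^ (p - 2) = 0 := by
  have := AdjoinRoot.eval₂_root ((X : (ZMod p)[X]) ^ (p - 2))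
  simpa [tt] using this

lemma natCast_self_eq_zero_of_algebra (A : Type*) [Semiring A] [Algebra (ZMod p) A] :
    (p : A) = 0 := by
  rw [← map_natCast (algebraMap (ZMod p) A) p, ZMod.natCast_self, map_zero]

/-- `z = (1 + t) + (1 + t) ε`, the image of `ζ`. -/
noncomputable def zz : DualNumber (TruncRing p) :=
  TrivSqZeroExt.inl (1 + tt p) + TrivSqZeroExt.inr (1 + tt p)

lemma zz_sub_one_pow (hp3 : 3 ≤ p) : (zz p - 1) ^ (p - 1) = 0 := by
  have hfst : (zz p - 1).fst = tt p := by simp [zz]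
  have hsnd : (zz p - 1).snd = 1 + tt p := by simp [zz]
  have h1 : (tt p) ^ (p - 1) = 0 := by
    have : p - 1 = (p - 2) + 1 := by omega
    rw [this, pow_succ, tt_pow, zero_mul]
  ext
  · rw [TrivSqZeroExt.fst_pow, hfst, h1, TrivSqZeroExt.fst_zero]
  · rw [TrivSqZeroExt.snd_pow, hfst, hsnd, TrivSqZeroExt.snd_zero]
    have : (p - 1).pred = p - 2 := by
      simp only [Nat.pred_eq_sub_one]; omega
    rw [this, tt_pow, zero_smul, smul_zero]

lemma aeval_zz (hp3 : 3 ≤ p) : aeval (zz p) (cyclotomic p ℤ) = 0 := by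
  have h1 : aeval (zz p) (cyclotomic p ℤ) = aeval (zz p) (cyclotomic p (ZMod p)) := by
    rw [← map_cyclotomic p (Int.castRingHom (ZMod p))]
    rw [← algebraMap_int_eq, aeval_map_algebraMap]
  have h2 : cyclotomic p (ZMod p) = (X - 1) ^ (p - 1) := by
    have := cyclotomic_mul_prime_pow_eq (ZMod p) (p := p) (m := 1) hp.out.not_dvd_one
      (k := 1) one_pos
    simpa [cyclotomic_one] using this
  rw [h1, h2]
  simp only [map_pow, map_sub, aeval_X, map_one]
  exact zz_sub_one_pow p hp3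

variable {p}
variable {K : Type*} [Field K] [NumberField K] [IsCyclotomicExtension {p} ℚ K]
variable {ζ : K} (hζ : IsPrimitiveRoot ζ p)

lemma minpoly_toInteger : minpoly ℤ hζ.toInteger = cyclotomic p ℤ := by
  rw [cyclotomic_eq_minpoly hζ hp.out.pos, ← RingOfIntegers.minpoly_coe]
  rfl

/-- The ring homomorphism `Θ : 𝓞 K → DualNumber (𝔽_p[t]/(t^(p-2)))`, `ζ ↦ (1+t) + (1+t)ε`. -/
noncomputable def Theta (hp3 : 3 ≤ p) : 𝓞 K →ₐ[ℤ] DualNumber (TruncRing p) :=
  hζ.integralPowerBasis.lift (zz p) (by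
    rw [hζ.integralPowerBasis_gen, minpoly_toInteger hζ]
    exact aeval_zz p hp3)

lemma Theta_toInteger (hp3 : 3 ≤ p) : Theta hζ hp3 hζ.toInteger = zz p := by
  calc Theta hζ hp3 hζ.toInteger = Theta hζ hp3 hζ.integralPowerBasis.gen := by
        rw [hζ.integralPowerBasis_gen]
    _ = zz p := PowerBasis.lift_gen _ _ _

lemma fst_mul_fst_inv {R : Type*} [CommRing R] (w : (DualNumber R)ˣ) :
    (w : DualNumber R).fst * ((w⁻¹ : (DualNumber R)ˣ) : DualNumber R).fst = 1 := by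
  rw [← TrivSqZeroExt.fst_mul, ← Units.val_mul, mul_inv_cancel, Units.val_one,
    TrivSqZeroExt.fst_one]

lemma dlogDual_aux {R : Type*} [CommRing R] (w₁ w₂ : (DualNumber R)ˣ) :
    ((w₁ * w₂ : (DualNumber R)ˣ) : DualNumber R).snd *
        (((w₁ * w₂)⁻¹ : (DualNumber R)ˣ) : DualNumber R).fst =
      (w₁ : DualNumber R).snd * ((w₁⁻¹ : (DualNumber R)ˣ) : DualNumber R).fst +
        (w₂ : DualNumber R).snd * ((w₂⁻¹ : (DualNumber R)ˣ) : DualNumber R).fst := by
  have h1 := fst_mul_fst_inv w₁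
  have h2 := fst_mul_fst_inv w₂
  have h3 : ((w₁ * w₂)⁻¹ : (DualNumber R)ˣ) = w₂⁻¹ * w₁⁻¹ := mul_inv_rev _ _
  rw [h3]
  simp only [Units.val_mul, TrivSqZeroExt.snd_mul, TrivSqZeroExt.fst_mul,
    smul_eq_mul, MulOpposite.smul_eq_mul_unop, MulOpposite.unop_op]
  linear_combination ((w₂ : DualNumber R).snd * ((w₂⁻¹ : (DualNumber R)ˣ) :
      DualNumber R).fst) * h1 + ((w₁ : DualNumber R).snd *
      ((w₁⁻¹ : (DualNumber R)ˣ) : DualNumber R).fst) * h2

/-- The logarithmic derivative on units of the dual numbers: `a + bε ↦ b / a`. -/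
noncomputable def dlogDual (R : Type*) [CommRing R] : Additive (DualNumber R)ˣ →+ R where
  toFun w := (w.toMul : DualNumber R).snd * ((w.toMul⁻¹ : (DualNumber R)ˣ) : DualNumber R).fst
  map_zero' := by simp
  map_add' w₁ w₂ := dlogDual_aux w₁.toMul w₂.toMul

lemma dlogDual_apply {R : Type*} [CommRing R] (w : (DualNumber R)ˣ) :
    dlogDual R (Additive.ofMul w) =
      (w : DualNumber R).snd * ((w⁻¹ : (DualNumber R)ˣ) : DualNumber R).fst := rfl

/-- `dlogDual w = v` as soon as `v * fst w = snd w`. -/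
lemma dlogDual_eq_of_mul_eq {R : Type*} [CommRing R] (w : (DualNumber R)ˣ) (v : R)
    (h : v * (w : DualNumber R).fst = (w : DualNumber R).snd) :
    dlogDual R (Additive.ofMul w) = v := by
  rw [dlogDual_apply, ← h, mul_assoc, fst_mul_fst_inv, mul_one]

/-- The logarithmic derivative `L : (𝓞 K)ˣ → 𝔽_p[t]/(t^(p-2))`. -/
noncomputable def dlog (hp3 : 3 ≤ p) : Additive (𝓞 K)ˣ →+ TruncRing p :=
  (dlogDual (TruncRing p)).comp
    (MonoidHom.toAdditive (Units.map (Theta hζ hp3 : 𝓞 K →* DualNumber (TruncRing p))))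

lemma dlog_apply (hp3 : 3 ≤ p) (u : (𝓞 K)ˣ) :
    dlog hζ hp3 (Additive.ofMul u) =
      dlogDual (TruncRing p) (Additive.ofMul (Units.map
        (Theta hζ hp3 : 𝓞 K →* DualNumber (TruncRing p)) u)) := rfl

/-- If `u ≡ a mod p` for an integer `a`, then `dlog u = 0`. -/
lemma dlog_eq_zero_of_dvd (hp3 : 3 ≤ p) (u : (𝓞 K)ˣ) (a : ℤ)
    (h : (p : 𝓞 K) ∣ (u : 𝓞 K) - a) : dlog hζ hp3 (Additive.ofMul u) = 0 := by
  obtain ⟨w, hw⟩ := h
  have hu : (u : 𝓞 K) = a + p * w := by rw [← hw]; ring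
  have hΘ : Theta hζ hp3 (u : 𝓞 K) = (a : DualNumber (TruncRing p)) := by
    rw [hu, map_add, map_mul, map_intCast, map_natCast,
      natCast_self_eq_zero_of_algebra p (DualNumber (TruncRing p)), zero_mul, add_zero]
  rw [dlog_apply, dlogDual_apply]
  have : ((Units.map (Theta hζ hp3 : 𝓞 K →* DualNumber (TruncRing p)) u :
      (DualNumber (TruncRing p))ˣ) : DualNumber (TruncRing p)).snd = 0 := by
    rw [Units.coe_map]
    show (Theta hζ hp3 (u : 𝓞 K)).snd = 0
    rw [hΘ]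
    simp
  rw [this, zero_mul]


/-! ### Generators of the unit group -/

omit hp in
/-- The unit group of a number field is generated by `rank K + 1` elements. -/
lemma exists_generators_units (K : Type*) [Field K] [NumberField K] :
    ∃ γ : Option (Fin (Units.rank K)) → (𝓞 K)ˣ,
      ∀ u : (𝓞 K)ˣ, ∃ e : Option (Fin (Units.rank K)) → ℤ, u = ∏ i, γ i ^ e i := by
  obtain ⟨τ, hτ⟩ := IsCyclic.exists_generator (α := Units.torsion K)
  refine ⟨fun i => Option.elim i (τ : (𝓞 K)ˣ) (Units.fundSystem K), fun u => ?_⟩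
  obtain ⟨⟨ζ, e⟩, hζe, -⟩ := Units.exist_unique_eq_mul_prod K u
  obtain ⟨k, hk⟩ := Subgroup.mem_zpowers_iff.mp (hτ ζ)
  refine ⟨fun i => Option.elim i k e, ?_⟩
  rw [Fintype.prod_option]
  simp only [Option.elim_none, Option.elim_some]
  rw [hζe]
  congr 1
  rw [← hk]
  simp

lemma card_generators (hp3 : 3 ≤ p) :
    Fintype.card (Option (Fin (Units.rank K))) = (p - 1) / 2 := by
  have : NeZero p := ⟨hp.out.ne_zero⟩
  rw [Fintype.card_option, Fintype.card_fin, Units.rank,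
    InfinitePlace.card_eq_nrRealPlaces_add_nrComplexPlaces,
    IsCyclotomicExtension.Rat.nrRealPlaces_eq_zero (n := p) K (by omega),
    IsCyclotomicExtension.Rat.nrComplexPlaces_eq_totient_div_two p K,
    Nat.totient_prime hp.out, zero_add]
  have : 1 ≤ (p - 1) / 2 := by omega
  omega

/-- **Kummer's lemma from a rank computation.** If the logarithmic derivatives of `(p-1)/2` units
are linearly independent over `𝔽_p`, then every unit congruent to a rational integer modulo `p`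
is a `p`-th power. -/
theorem kummer_of_linearIndependent (hp3 : 3 ≤ p) {κ : Type*} [Fintype κ]
    (hκ : (p - 1) / 2 ≤ Fintype.card κ) (g : κ → (𝓞 K)ˣ)
    (hg : LinearIndependent (ZMod p) (fun k => dlog hζ hp3 (Additive.ofMul (g k))))
    (u : (𝓞 K)ˣ) (a : ℤ) (h : (p : 𝓞 K) ∣ (u : 𝓞 K) - a) : ∃ v : (𝓞 K)ˣ, u = v ^ p := by
  obtain ⟨γ, hγ⟩ := exists_generators_units K
  exact exists_pow_eq_of_map_eq_zero (p := p) (dlog hζ hp3) γ hγ g hg
    (by rw [card_generators (K := K) hp3]; exact hκ) u (dlog_eq_zero_of_dvd hζ hp3 u a h)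

end dlog

end Fermat.Agent.Kummer.KL
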