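import Mathlib
import Fermat.Agent.Kummer.KummerDlog

set_option linter.unusedSectionVars false

namespace Fermat.Agent.Kummer.KL

open NumberField Polynomial

section indep

variable (p : ℕ) [hp : Fact p.Prime]

/-- If a polynomial expression of degree `< p - 2` in `t` vanishes in `𝔽_p[t]/(t^(p-2))`, then
all its coefficients vanish. -/
lemma coeff_eq_zero_of_sum_eq_zero {n : ℕ} (hn : n ≤ p - 2) (a : Fin n → ZMod p)
    (h : ∑ j : Fin n, algebraMap (ZMod p) (TruncRing p) (a j) * tt p ^ (j : ℕ) = 0) :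
    ∀ j, a j = 0 := by
  set f : (ZMod p)[X] := ∑ j : Fin n, C (a j) * X ^ (j : ℕ) with hf
  have hmk : AdjoinRoot.mk (X ^ (p - 2) : (ZMod p)[X]) f = 0 := by
    rw [hf, map_sum, ← h]
    refine Finset.sum_congr rfl fun j _ => ?_
    rw [map_mul, map_pow, AdjoinRoot.mk_X, AdjoinRoot.mk_C]
    rfl
  rw [AdjoinRoot.mk_eq_zero] at hmk
  have hdeg : f.degree < (p - 2 : ℕ) := by
    rw [hf]
    refine lt_of_le_of_lt (degree_sum_le _ _) ?_
    rw [Finset.sup_lt_iff (by exact WithBot.bot_lt_coe _)]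
    intro j _
    refine lt_of_le_of_lt (degree_C_mul_X_pow_le _ _) ?_
    exact_mod_cast lt_of_lt_of_le j.2 hn
  have hf0 : f = 0 := by
    by_contra hne
    have := degree_le_of_dvd hmk hne
    rw [degree_X_pow] at this
    exact absurd this (not_le.mpr hdeg)
  intro j
  have := congrArg (fun g => g.coeff (j : ℕ)) hf0
  simp only [hf, finsetSum_coeff, coeff_C_mul, coeff_X_pow, coeff_zero] at this
  rw [Finset.sum_eq_single j] at this
  · simpa using this
  · intro k _ hk
    have : (j : ℕ) ≠ (k : ℕ) := fun h => hk (Fin.ext h.symm)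
    simp [this]
  · intro h; exact absurd (Finset.mem_univ j) h

/-- Linear independence in `𝔽_p[t]/(t^(p-2))` from an explicit coefficient matrix `M` having a
right inverse `N` over `𝔽_p`. -/
lemma linearIndependent_of_coeffs {m n : ℕ} (hn : n ≤ p - 2)
    (M : Fin m → Fin n → ZMod p) (N : Fin n → Fin m → ZMod p)
    (hMN : ∀ i k, ∑ j, M i j * N j k = if i = k then 1 else 0)
    (w : Fin m → TruncRing p)
    (hw : ∀ i, w i = ∑ j : Fin n, algebraMap (ZMod p) (TruncRing p) (M i j) * tt p ^ (j : ℕ)) :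
    LinearIndependent (ZMod p) w := by
  rw [Fintype.linearIndependent_iff]
  intro c hc k
  have h1 : ∑ j : Fin n, algebraMap (ZMod p) (TruncRing p) (∑ i, c i * M i j) * tt p ^ (j : ℕ)
      = 0 := by
    rw [← hc]
    simp only [hw, map_sum, map_mul, Finset.sum_mul, Algebra.smul_def, Finset.mul_sum]
    rw [Finset.sum_comm]
    refine Finset.sum_congr rfl fun i _ => Finset.sum_congr rfl fun j _ => ?_
    ring
  have h2 := coeff_eq_zero_of_sum_eq_zero p hn _ h1
  calc c k = ∑ i, c i * (if i = k then 1 else 0) := by simp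
    _ = ∑ i, c i * ∑ j, M i j * N j k := by simp only [hMN]
    _ = ∑ j, (∑ i, c i * M i j) * N j k := by
        simp only [Finset.mul_sum, Finset.sum_mul]
        rw [Finset.sum_comm]
        refine Finset.sum_congr rfl fun i _ => Finset.sum_congr rfl fun j _ => ?_
        ring
    _ = 0 := by simp only [h2, zero_mul, Finset.sum_const_zero]


variable {p}
variable {K : Type*} [Field K] [NumberField K] [IsCyclotomicExtension {p} ℚ K]
variable {ζ : K} (hζ : IsPrimitiveRoot ζ p)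

lemma fst_zz_pow (i : ℕ) : (zz p ^ i).fst = (1 + tt p) ^ i := by
  rw [TrivSqZeroExt.fst_pow]; simp [zz]

lemma snd_zz_pow (i : ℕ) : (zz p ^ i).snd = (i : TruncRing p) * (1 + tt p) ^ i := by
  rw [TrivSqZeroExt.snd_pow]
  cases i with
  | zero => simp
  | succ k =>
    simp only [zz, Nat.pred_succ, TrivSqZeroExt.fst_add, TrivSqZeroExt.fst_inl,
      TrivSqZeroExt.fst_inr, add_zero, TrivSqZeroExt.snd_add, TrivSqZeroExt.snd_inl,
      TrivSqZeroExt.snd_inr, zero_add, smul_eq_mul, nsmul_eq_mul]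
    ring

/-- `ζ` as a unit of `𝓞 K`. -/
noncomputable def zetaUnit : (𝓞 K)ˣ :=
  (hζ.toInteger_isPrimitiveRoot.isUnit hp.out.ne_zero).unit

lemma coe_zetaUnit : (zetaUnit hζ : 𝓞 K) = hζ.toInteger := rfl

lemma dlog_zetaUnit (hp3 : 3 ≤ p) : dlog hζ hp3 (Additive.ofMul (zetaUnit hζ)) = 1 := by
  rw [dlog_apply]
  apply dlogDual_eq_of_mul_eq
  rw [Units.coe_map]
  show 1 * (Theta hζ hp3 (zetaUnit hζ : 𝓞 K)).fst = (Theta hζ hp3 (zetaUnit hζ : 𝓞 K)).snd
  rw [coe_zetaUnit, Theta_toInteger]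
  simp [zz]

/-- The cyclotomic unit `ε_a = 1 + ζ + ⋯ + ζ^(a-1)` (and `1` if `a` is not prime to `p`). -/
noncomputable def cycUnit (a : ℕ) : (𝓞 K)ˣ :=
  if h : a.Coprime p then
    (hζ.toInteger_isPrimitiveRoot.geom_sum_isUnit hp.out.two_le h).unit
  else 1

lemma coe_cycUnit {a : ℕ} (h : a.Coprime p) :
    (cycUnit hζ a : 𝓞 K) = ∑ i ∈ Finset.range a, hζ.toInteger ^ i := by
  rw [cycUnit, dif_pos h]; rfl

lemma dlog_cycUnit (hp3 : 3 ≤ p) {a : ℕ} (h : a.Coprime p) (v : TruncRing p)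
    (hv : v * ∑ i ∈ Finset.range a, (1 + tt p) ^ i =
      ∑ i ∈ Finset.range a, (i : TruncRing p) * (1 + tt p) ^ i) :
    dlog hζ hp3 (Additive.ofMul (cycUnit hζ a)) = v := by
  rw [dlog_apply]
  apply dlogDual_eq_of_mul_eq
  rw [Units.coe_map]
  show v * (Theta hζ hp3 (cycUnit hζ a : 𝓞 K)).fst = (Theta hζ hp3 (cycUnit hζ a : 𝓞 K)).snd
  rw [coe_cycUnit hζ h, map_sum]
  simp only [map_pow, Theta_toInteger]
  have hf : (∑ i ∈ Finset.range a, zz p ^ i).fst = ∑ i ∈ Finset.range a, (1 + tt p) ^ i := by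
    rw [← TrivSqZeroExt.fstHom_apply (S := ℤ), map_sum]
    exact Finset.sum_congr rfl fun i _ => fst_zz_pow i
  have hs : (∑ i ∈ Finset.range a, zz p ^ i).snd =
      ∑ i ∈ Finset.range a, (i : TruncRing p) * (1 + tt p) ^ i := by
    rw [← TrivSqZeroExt.sndHom_apply (R := TruncRing p), map_sum]
    exact Finset.sum_congr rfl fun i _ => snd_zz_pow i
  rw [hf, hs, hv]

end indep

end Fermat.Agent.Kummer.KL
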