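import Mathlib
import Fermat.Agent.Kummer.KummerIndep

/-! # Kummer's lemma for `p = 11` (generated data: logarithmic derivatives of cyclotomic units) -/

set_option linter.unusedSectionVars false
set_option linter.unusedSimpArgs false
set_option linter.style.longLine false

namespace Fermat.Agent.Kummer.KL

open NumberField Polynomial

instance fact_prime_eleven : Fact (Nat.Prime 11) := ⟨by norm_num⟩

/-- Coefficient matrix of the logarithmic derivatives for `p = 11`. -/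
def M11 : Fin 5 → Fin 9 → ZMod 11 :=
  ![![1, 0, 0, 0, 0, 0, 0, 0, 0],
    ![6, 3, 4, 9, 1, 5, 3, 4, 9],
    ![1, 8, 7, 5, 0, 2, 9, 5, 3],
    ![7, 4, 9, 9, 4, 2, 10, 4, 0],
    ![2, 2, 10, 2, 3, 6, 0, 0, 0]]

/-- A right inverse of `M11` over `𝔽_11`. -/
def N11 : Fin 9 → Fin 5 → ZMod 11 :=
  ![![1, 0, 0, 0, 0],
    ![0, 6, 7, 10, 4],
    ![0, 0, 0, 0, 0],
    ![9, 9, 8, 3, 9],
    ![0, 0, 0, 0, 0],
    ![4, 6, 6, 3, 5],
    ![0, 0, 0, 0, 0],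
    ![9, 1, 5, 4, 9],
    ![0, 0, 0, 0, 0]]

lemma hMN11 : ∀ i k, ∑ j, M11 i j * N11 j k = if i = k then 1 else 0 := by
  decide

lemma tt_pow_eleven : tt 11 ^ 9 = 0 := tt_pow 11

lemma cast_eleven : (11 : TruncRing 11) = 0 := by
  have := natCast_self_eq_zero_of_algebra 11 (TruncRing 11)
  exact_mod_cast this

lemma hv11_2 : ((6) + (3) * tt 11 + (4) * tt 11 ^ 2 + (9) * tt 11 ^ 3 + (1) * tt 11 ^ 4 + (5) * tt 11 ^ 5 + (3) * tt 11 ^ 6 + (4) * tt 11 ^ 7 + (9) * tt 11 ^ 8) * ∑ i ∈ Finset.range 2, (1 + tt 11) ^ i =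
    ∑ i ∈ Finset.range 2, (i : TruncRing 11) * (1 + tt 11) ^ i := by
  simp only [Finset.sum_range_succ, Finset.sum_range_zero, Nat.cast_zero, Nat.cast_one, Nat.cast_ofNat]
  linear_combination ((9)) * tt_pow_eleven + ((1) + (1) * tt 11 + (1) * tt 11 ^ 2 + (2) * tt 11 ^ 3 + (1) * tt 11 ^ 4 + (1) * tt 11 ^ 5 + (1) * tt 11 ^ 6 + (1) * tt 11 ^ 7 + (2) * tt 11 ^ 8) * cast_eleven

lemma hv11_3 : ((1) + (8) * tt 11 + (7) * tt 11 ^ 2 + (5) * tt 11 ^ 3 + (2) * tt 11 ^ 5 + (9) * tt 11 ^ 6 + (5) * tt 11 ^ 7 + (3) * tt 11 ^ 8) * ∑ i ∈ Finset.range 3, (1 + tt 11) ^ i =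
    ∑ i ∈ Finset.range 3, (i : TruncRing 11) * (1 + tt 11) ^ i := by
  simp only [Finset.sum_range_succ, Finset.sum_range_zero, Nat.cast_zero, Nat.cast_one, Nat.cast_ofNat]
  linear_combination ((14) + (3) * tt 11) * tt_pow_eleven + ((2) * tt 11 + (4) * tt 11 ^ 2 + (4) * tt 11 ^ 3 + (2) * tt 11 ^ 4 + (1) * tt 11 ^ 5 + (3) * tt 11 ^ 6 + (4) * tt 11 ^ 7 + (3) * tt 11 ^ 8) * cast_eleven

lemma hv11_4 : ((7) + (4) * tt 11 + (9) * tt 11 ^ 2 + (9) * tt 11 ^ 3 + (4) * tt 11 ^ 4 + (2) * tt 11 ^ 5 + (10) * tt 11 ^ 6 + (4) * tt 11 ^ 7) * ∑ i ∈ Finset.range 4, (1 + tt 11) ^ i =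
    ∑ i ∈ Finset.range 4, (i : TruncRing 11) * (1 + tt 11) ^ i := by
  simp only [Finset.sum_range_succ, Finset.sum_range_zero, Nat.cast_zero, Nat.cast_one, Nat.cast_ofNat]
  linear_combination ((26) + (4) * tt 11) * tt_pow_eleven + ((2) + (4) * tt 11 + (7) * tt 11 ^ 2 + (10) * tt 11 ^ 3 + (10) * tt 11 ^ 4 + (7) * tt 11 ^ 5 + (7) * tt 11 ^ 6 + (8) * tt 11 ^ 7 + (6) * tt 11 ^ 8) * cast_eleven

lemma hv11_5 : ((2) + (2) * tt 11 + (10) * tt 11 ^ 2 + (2) * tt 11 ^ 3 + (3) * tt 11 ^ 4 + (6) * tt 11 ^ 5) * ∑ i ∈ Finset.range 5, (1 + tt 11) ^ i =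
    ∑ i ∈ Finset.range 5, (i : TruncRing 11) * (1 + tt 11) ^ i := by
  simp only [Finset.sum_range_succ, Finset.sum_range_zero, Nat.cast_zero, Nat.cast_one, Nat.cast_ofNat]
  linear_combination ((6)) * tt_pow_eleven + ((5) * tt 11 ^ 2 + (11) * tt 11 ^ 3 + (13) * tt 11 ^ 4 + (12) * tt 11 ^ 5 + (10) * tt 11 ^ 6 + (7) * tt 11 ^ 7 + (3) * tt 11 ^ 8) * cast_eleven

variable {K : Type*} [Field K] [NumberField K] [IsCyclotomicExtension {11} ℚ K]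
variable {ζ : K} (hζ : IsPrimitiveRoot ζ 11)

/-- The family of `5` units used for `p = 11`. -/
noncomputable def g11 : Fin 5 → (𝓞 K)ˣ :=
  ![zetaUnit hζ, cycUnit hζ 2, cycUnit hζ 3, cycUnit hζ 4, cycUnit hζ 5]

lemma hw11 (hp3 : 3 ≤ 11) : ∀ i, dlog hζ hp3 (Additive.ofMul (g11 hζ i)) =
    ∑ j : Fin 9, algebraMap (ZMod 11) (TruncRing 11) (M11 i j) * tt 11 ^ (j : ℕ) := by
  intro i
  fin_cases i
  · simp [g11, M11, Fin.sum_univ_succ, dlog_zetaUnit]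
  · have h := dlog_cycUnit hζ hp3 (a := 2) (by norm_num) _ hv11_2
    simp [g11, M11, Fin.sum_univ_succ] at h ⊢
    rw [h]
    simp only [map_ofNat]
    ring
  · have h := dlog_cycUnit hζ hp3 (a := 3) (by norm_num) _ hv11_3
    simp [g11, M11, Fin.sum_univ_succ] at h ⊢
    rw [h]
    simp only [map_ofNat]
    ring
  · have h := dlog_cycUnit hζ hp3 (a := 4) (by norm_num) _ hv11_4
    simp [g11, M11, Fin.sum_univ_succ] at h ⊢
    rw [h]
    simp only [map_ofNat]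
    ring
  · have h := dlog_cycUnit hζ hp3 (a := 5) (by norm_num) _ hv11_5
    simp [g11, M11, Fin.sum_univ_succ] at h ⊢
    rw [h]
    simp only [map_ofNat]
    ring

/-- **Kummer's lemma for `p = 11`**: a unit of `ℤ[ζ_11]` congruent to a rational integer
modulo `11` is a `11`-th power. -/
theorem kummer_eleven (u : (𝓞 K)ˣ) (a : ℤ) (h : ((11 : ℕ) : 𝓞 K) ∣ (u : 𝓞 K) - a) :
    ∃ v : (𝓞 K)ˣ, u = v ^ 11 := by
  have hζ := IsCyclotomicExtension.zeta_spec 11 ℚ K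
  have hp3 : 3 ≤ 11 := by norm_num
  refine kummer_of_linearIndependent hζ hp3 (κ := Fin 5) (by simp) (g11 hζ) ?_ u a h
  exact linearIndependent_of_coeffs 11 (n := 9) (by norm_num) M11 N11 hMN11 _ (hw11 hζ hp3)

end Fermat.Agent.Kummer.KL
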