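import Mathlib
import Fermat.Agent.Kummer.KummerIndep

/-! # Kummer's lemma for `p = 13` (generated data: logarithmic derivatives of cyclotomic units) -/

set_option linter.unusedSectionVars false
set_option linter.unusedSimpArgs false
set_option linter.style.longLine false

namespace Fermat.Agent.Kummer.KL

open NumberField Polynomial

instance fact_prime_thirteen : Fact (Nat.Prime 13) := ⟨by norm_num⟩

/-- Coefficient matrix of the logarithmic derivatives for `p = 13`. -/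
def M13 : Fin 6 → Fin 11 → ZMod 13 :=
  ![![1, 0, 0, 0, 0, 0, 0, 0, 0, 0, 0],
    ![7, 10, 8, 9, 2, 12, 7, 3, 5, 4, 11],
    ![1, 5, 4, 3, 0, 12, 1, 8, 9, 10, 0],
    ![8, 11, 1, 9, 12, 2, 12, 3, 9, 0, 0],
    ![2, 2, 12, 5, 6, 2, 0, 2, 11, 10, 8],
    ![9, 4, 11, 11, 4, 10, 7, 0, 0, 0, 0]]

/-- A right inverse of `M13` over `𝔽_13`. -/
def N13 : Fin 11 → Fin 6 → ZMod 13 :=
  ![![1, 0, 0, 0, 0, 0],
    ![10, 7, 6, 8, 12, 9],
    ![0, 0, 0, 0, 0, 0],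
    ![9, 6, 1, 4, 7, 5],
    ![0, 0, 0, 0, 0, 0],
    ![6, 1, 3, 8, 7, 4],
    ![0, 0, 0, 0, 0, 0],
    ![12, 12, 12, 10, 4, 10],
    ![0, 0, 0, 0, 0, 0],
    ![4, 6, 7, 11, 5, 2],
    ![0, 0, 0, 0, 0, 0]]

lemma hMN13 : ∀ i k, ∑ j, M13 i j * N13 j k = if i = k then 1 else 0 := by
  decide

lemma tt_pow_thirteen : tt 13 ^ 11 = 0 := tt_pow 13

lemma cast_thirteen : (13 : TruncRing 13) = 0 := by
  have := natCast_self_eq_zero_of_algebra 13 (TruncRing 13)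
  exact_mod_cast this

lemma hv13_2 : ((7) + (10) * tt 13 + (8) * tt 13 ^ 2 + (9) * tt 13 ^ 3 + (2) * tt 13 ^ 4 + (12) * tt 13 ^ 5 + (7) * tt 13 ^ 6 + (3) * tt 13 ^ 7 + (5) * tt 13 ^ 8 + (4) * tt 13 ^ 9 + (11) * tt 13 ^ 10) * ∑ i ∈ Finset.range 2, (1 + tt 13) ^ i =
    ∑ i ∈ Finset.range 2, (i : TruncRing 13) * (1 + tt 13) ^ i := by
  simp only [Finset.sum_range_succ, Finset.sum_range_zero, Nat.cast_zero, Nat.cast_one, Nat.cast_ofNat]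
  linear_combination ((11)) * tt_pow_thirteen + ((1) + (2) * tt 13 + (2) * tt 13 ^ 2 + (2) * tt 13 ^ 3 + (1) * tt 13 ^ 4 + (2) * tt 13 ^ 5 + (2) * tt 13 ^ 6 + (1) * tt 13 ^ 7 + (1) * tt 13 ^ 8 + (1) * tt 13 ^ 9 + (2) * tt 13 ^ 10) * cast_thirteen

lemma hv13_3 : ((1) + (5) * tt 13 + (4) * tt 13 ^ 2 + (3) * tt 13 ^ 3 + (12) * tt 13 ^ 5 + (1) * tt 13 ^ 6 + (8) * tt 13 ^ 7 + (9) * tt 13 ^ 8 + (10) * tt 13 ^ 9) * ∑ i ∈ Finset.range 3, (1 + tt 13) ^ i =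
    ∑ i ∈ Finset.range 3, (i : TruncRing 13) * (1 + tt 13) ^ i := by
  simp only [Finset.sum_range_succ, Finset.sum_range_zero, Nat.cast_zero, Nat.cast_one, Nat.cast_ofNat]
  linear_combination ((10)) * tt_pow_thirteen + ((1) * tt 13 + (2) * tt 13 ^ 2 + (2) * tt 13 ^ 3 + (1) * tt 13 ^ 4 + (3) * tt 13 ^ 5 + (3) * tt 13 ^ 6 + (3) * tt 13 ^ 7 + (4) * tt 13 ^ 8 + (5) * tt 13 ^ 9 + (3) * tt 13 ^ 10) * cast_thirteen

lemma hv13_4 : ((8) + (11) * tt 13 + (1) * tt 13 ^ 2 + (9) * tt 13 ^ 3 + (12) * tt 13 ^ 4 + (2) * tt 13 ^ 5 + (12) * tt 13 ^ 6 + (3) * tt 13 ^ 7 + (9) * tt 13 ^ 8) * ∑ i ∈ Finset.range 4, (1 + tt 13) ^ i =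
    ∑ i ∈ Finset.range 4, (i : TruncRing 13) * (1 + tt 13) ^ i := by
  simp only [Finset.sum_range_succ, Finset.sum_range_zero, Nat.cast_zero, Nat.cast_one, Nat.cast_ofNat]
  linear_combination ((9)) * tt_pow_thirteen + ((2) + (6) * tt 13 + (7) * tt 13 ^ 2 + (7) * tt 13 ^ 3 + (9) * tt 13 ^ 4 + (9) * tt 13 ^ 5 + (9) * tt 13 ^ 6 + (8) * tt 13 ^ 7 + (8) * tt 13 ^ 8 + (6) * tt 13 ^ 9 + (3) * tt 13 ^ 10) * cast_thirteen

lemma hv13_5 : ((2) + (2) * tt 13 + (12) * tt 13 ^ 2 + (5) * tt 13 ^ 3 + (6) * tt 13 ^ 4 + (2) * tt 13 ^ 5 + (2) * tt 13 ^ 7 + (11) * tt 13 ^ 8 + (10) * tt 13 ^ 9 + (8) * tt 13 ^ 10) * ∑ i ∈ Finset.range 5, (1 + tt 13) ^ i =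
    ∑ i ∈ Finset.range 5, (i : TruncRing 13) * (1 + tt 13) ^ i := by
  simp only [Finset.sum_range_succ, Finset.sum_range_zero, Nat.cast_zero, Nat.cast_one, Nat.cast_ofNat]
  linear_combination ((237) + (141) * tt 13 + (50) * tt 13 ^ 2 + (8) * tt 13 ^ 3) * tt_pow_thirteen + ((5) * tt 13 ^ 2 + (12) * tt 13 ^ 3 + (16) * tt 13 ^ 4 + (14) * tt 13 ^ 5 + (9) * tt 13 ^ 6 + (5) * tt 13 ^ 7 + (7) * tt 13 ^ 8 + (14) * tt 13 ^ 9 + (20) * tt 13 ^ 10) * cast_thirteen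

lemma hv13_6 : ((9) + (4) * tt 13 + (11) * tt 13 ^ 2 + (11) * tt 13 ^ 3 + (4) * tt 13 ^ 4 + (10) * tt 13 ^ 5 + (7) * tt 13 ^ 6) * ∑ i ∈ Finset.range 6, (1 + tt 13) ^ i =
    ∑ i ∈ Finset.range 6, (i : TruncRing 13) * (1 + tt 13) ^ i := by
  simp only [Finset.sum_range_succ, Finset.sum_range_zero, Nat.cast_zero, Nat.cast_one, Nat.cast_ofNat]
  linear_combination ((7)) * tt_pow_thirteen + ((3) + (8) * tt 13 + (17) * tt 13 ^ 2 + (29) * tt 13 ^ 3 + (38) * tt 13 ^ 4 + (41) * tt 13 ^ 5 + (39) * tt 13 ^ 6 + (34) * tt 13 ^ 7 + (25) * tt 13 ^ 8 + (13) * tt 13 ^ 9 + (4) * tt 13 ^ 10) * cast_thirteen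

variable {K : Type*} [Field K] [NumberField K] [IsCyclotomicExtension {13} ℚ K]
variable {ζ : K} (hζ : IsPrimitiveRoot ζ 13)

/-- The family of `6` units used for `p = 13`. -/
noncomputable def g13 : Fin 6 → (𝓞 K)ˣ :=
  ![zetaUnit hζ, cycUnit hζ 2, cycUnit hζ 3, cycUnit hζ 4, cycUnit hζ 5, cycUnit hζ 6]

lemma hw13 (hp3 : 3 ≤ 13) : ∀ i, dlog hζ hp3 (Additive.ofMul (g13 hζ i)) =
    ∑ j : Fin 11, algebraMap (ZMod 13) (TruncRing 13) (M13 i j) * tt 13 ^ (j : ℕ) := by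
  intro i
  fin_cases i
  · simp [g13, M13, Fin.sum_univ_succ, dlog_zetaUnit]
  · have h := dlog_cycUnit hζ hp3 (a := 2) (by norm_num) _ hv13_2
    simp [g13, M13, Fin.sum_univ_succ] at h ⊢
    rw [h]
    simp only [map_ofNat]
    ring
  · have h := dlog_cycUnit hζ hp3 (a := 3) (by norm_num) _ hv13_3
    simp [g13, M13, Fin.sum_univ_succ] at h ⊢
    rw [h]
    simp only [map_ofNat]
    ring
  · have h := dlog_cycUnit hζ hp3 (a := 4) (by norm_num) _ hv13_4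
    simp [g13, M13, Fin.sum_univ_succ] at h ⊢
    rw [h]
    simp only [map_ofNat]
    ring
  · have h := dlog_cycUnit hζ hp3 (a := 5) (by norm_num) _ hv13_5
    simp [g13, M13, Fin.sum_univ_succ] at h ⊢
    rw [h]
    simp only [map_ofNat]
    ring
  · have h := dlog_cycUnit hζ hp3 (a := 6) (by norm_num) _ hv13_6
    simp [g13, M13, Fin.sum_univ_succ] at h ⊢
    rw [h]
    simp only [map_ofNat]
    ring

/-- **Kummer's lemma for `p = 13`**: a unit of `ℤ[ζ_13]` congruent to a rational integer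
modulo `13` is a `13`-th power. -/
theorem kummer_thirteen (u : (𝓞 K)ˣ) (a : ℤ) (h : ((13 : ℕ) : 𝓞 K) ∣ (u : 𝓞 K) - a) :
    ∃ v : (𝓞 K)ˣ, u = v ^ 13 := by
  have hζ := IsCyclotomicExtension.zeta_spec 13 ℚ K
  have hp3 : 3 ≤ 13 := by norm_num
  refine kummer_of_linearIndependent hζ hp3 (κ := Fin 6) (by simp) (g13 hζ) ?_ u a h
  exact linearIndependent_of_coeffs 13 (n := 11) (by norm_num) M13 N13 hMN13 _ (hw13 hζ hp3)

end Fermat.Agent.Kummer.KL
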