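import Mathlib
import Fermat.Agent.Kummer.KummerIndep

/-! # Kummer's lemma for `p = 5` (generated data: logarithmic derivatives of cyclotomic units) -/

set_option linter.unusedSectionVars false
set_option linter.unusedSimpArgs false
set_option linter.style.longLine false

namespace Fermat.Agent.Kummer.KL

open NumberField Polynomial

instance fact_prime_five : Fact (Nat.Prime 5) := ⟨by norm_num⟩

/-- Coefficient matrix of the logarithmic derivatives for `p = 5`. -/
def M5 : Fin 2 → Fin 3 → ZMod 5 :=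
  ![![1, 0, 0],
    ![3, 4, 3]]

/-- A right inverse of `M5` over `𝔽_5`. -/
def N5 : Fin 3 → Fin 2 → ZMod 5 :=
  ![![1, 0],
    ![3, 4],
    ![0, 0]]

lemma hMN5 : ∀ i k, ∑ j, M5 i j * N5 j k = if i = k then 1 else 0 := by
  decide

lemma tt_pow_five : tt 5 ^ 3 = 0 := tt_pow 5

lemma cast_five : (5 : TruncRing 5) = 0 := by
  have := natCast_self_eq_zero_of_algebra 5 (TruncRing 5)
  exact_mod_cast this

lemma hv5_2 : ((3) + (4) * tt 5 + (3) * tt 5 ^ 2) * ∑ i ∈ Finset.range 2, (1 + tt 5) ^ i =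
    ∑ i ∈ Finset.range 2, (i : TruncRing 5) * (1 + tt 5) ^ i := by
  simp only [Finset.sum_range_succ, Finset.sum_range_zero, Nat.cast_zero, Nat.cast_one, Nat.cast_ofNat]
  linear_combination ((3)) * tt_pow_five + ((1) + (2) * tt 5 + (2) * tt 5 ^ 2) * cast_five

variable {K : Type*} [Field K] [NumberField K] [IsCyclotomicExtension {5} ℚ K]
variable {ζ : K} (hζ : IsPrimitiveRoot ζ 5)

/-- The family of `2` units used for `p = 5`. -/
noncomputable def g5 : Fin 2 → (𝓞 K)ˣ :=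
  ![zetaUnit hζ, cycUnit hζ 2]

lemma hw5 (hp3 : 3 ≤ 5) : ∀ i, dlog hζ hp3 (Additive.ofMul (g5 hζ i)) =
    ∑ j : Fin 3, algebraMap (ZMod 5) (TruncRing 5) (M5 i j) * tt 5 ^ (j : ℕ) := by
  intro i
  fin_cases i
  · simp [g5, M5, Fin.sum_univ_succ, dlog_zetaUnit]
  · have h := dlog_cycUnit hζ hp3 (a := 2) (by norm_num) _ hv5_2
    simp [g5, M5, Fin.sum_univ_succ] at h ⊢
    rw [h]
    simp only [map_ofNat]
    ring

/-- **Kummer's lemma for `p = 5`**: a unit of `ℤ[ζ_5]` congruent to a rational integer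
modulo `5` is a `5`-th power. -/
theorem kummer_five (u : (𝓞 K)ˣ) (a : ℤ) (h : ((5 : ℕ) : 𝓞 K) ∣ (u : 𝓞 K) - a) :
    ∃ v : (𝓞 K)ˣ, u = v ^ 5 := by
  have hζ := IsCyclotomicExtension.zeta_spec 5 ℚ K
  have hp3 : 3 ≤ 5 := by norm_num
  refine kummer_of_linearIndependent hζ hp3 (κ := Fin 2) (by simp) (g5 hζ) ?_ u a h
  exact linearIndependent_of_coeffs 5 (n := 3) (by norm_num) M5 N5 hMN5 _ (hw5 hζ hp3)

end Fermat.Agent.Kummer.KL
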