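import Mathlib
import Fermat.Agent.Kummer.KummerIndep

/-! # Kummer's lemma for `p = 7` (generated data: logarithmic derivatives of cyclotomic units) -/

set_option linter.unusedSectionVars false
set_option linter.unusedSimpArgs false
set_option linter.style.longLine false

namespace Fermat.Agent.Kummer.KL

open NumberField Polynomial

instance fact_prime_seven : Fact (Nat.Prime 7) := ⟨by norm_num⟩

/-- Coefficient matrix of the logarithmic derivatives for `p = 7`. -/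
def M7 : Fin 3 → Fin 5 → ZMod 7 :=
  ![![1, 0, 0, 0, 0],
    ![4, 2, 6, 4, 5],
    ![1, 3, 2, 4, 0]]

/-- A right inverse of `M7` over `𝔽_7`. -/
def N7 : Fin 5 → Fin 3 → ZMod 7 :=
  ![![1, 0, 0],
    ![3, 6, 1],
    ![0, 0, 0],
    ![1, 6, 3],
    ![0, 0, 0]]

lemma hMN7 : ∀ i k, ∑ j, M7 i j * N7 j k = if i = k then 1 else 0 := by
  decide

lemma tt_pow_seven : tt 7 ^ 5 = 0 := tt_pow 7

lemma cast_seven : (7 : TruncRing 7) = 0 := by
  have := natCast_self_eq_zero_of_algebra 7 (TruncRing 7)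
  exact_mod_cast this

lemma hv7_2 : ((4) + (2) * tt 7 + (6) * tt 7 ^ 2 + (4) * tt 7 ^ 3 + (5) * tt 7 ^ 4) * ∑ i ∈ Finset.range 2, (1 + tt 7) ^ i =
    ∑ i ∈ Finset.range 2, (i : TruncRing 7) * (1 + tt 7) ^ i := by
  simp only [Finset.sum_range_succ, Finset.sum_range_zero, Nat.cast_zero, Nat.cast_one, Nat.cast_ofNat]
  linear_combination ((5)) * tt_pow_seven + ((1) + (1) * tt 7 + (2) * tt 7 ^ 2 + (2) * tt 7 ^ 3 + (2) * tt 7 ^ 4) * cast_seven

lemma hv7_3 : ((1) + (3) * tt 7 + (2) * tt 7 ^ 2 + (4) * tt 7 ^ 3) * ∑ i ∈ Finset.range 3, (1 + tt 7) ^ i =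
    ∑ i ∈ Finset.range 3, (i : TruncRing 7) * (1 + tt 7) ^ i := by
  simp only [Finset.sum_range_succ, Finset.sum_range_zero, Nat.cast_zero, Nat.cast_one, Nat.cast_ofNat]
  linear_combination ((4)) * tt_pow_seven + ((1) * tt 7 + (2) * tt 7 ^ 2 + (3) * tt 7 ^ 3 + (2) * tt 7 ^ 4) * cast_seven

variable {K : Type*} [Field K] [NumberField K] [IsCyclotomicExtension {7} ℚ K]
variable {ζ : K} (hζ : IsPrimitiveRoot ζ 7)

/-- The family of `3` units used for `p = 7`. -/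
noncomputable def g7 : Fin 3 → (𝓞 K)ˣ :=
  ![zetaUnit hζ, cycUnit hζ 2, cycUnit hζ 3]

lemma hw7 (hp3 : 3 ≤ 7) : ∀ i, dlog hζ hp3 (Additive.ofMul (g7 hζ i)) =
    ∑ j : Fin 5, algebraMap (ZMod 7) (TruncRing 7) (M7 i j) * tt 7 ^ (j : ℕ) := by
  intro i
  fin_cases i
  · simp [g7, M7, Fin.sum_univ_succ, dlog_zetaUnit]
  · have h := dlog_cycUnit hζ hp3 (a := 2) (by norm_num) _ hv7_2
    simp [g7, M7, Fin.sum_univ_succ] at h ⊢
    rw [h]
    simp only [map_ofNat]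
    ring
  · have h := dlog_cycUnit hζ hp3 (a := 3) (by norm_num) _ hv7_3
    simp [g7, M7, Fin.sum_univ_succ] at h ⊢
    rw [h]
    simp only [map_ofNat]
    ring

/-- **Kummer's lemma for `p = 7`**: a unit of `ℤ[ζ_7]` congruent to a rational integer
modulo `7` is a `7`-th power. -/
theorem kummer_seven (u : (𝓞 K)ˣ) (a : ℤ) (h : ((7 : ℕ) : 𝓞 K) ∣ (u : 𝓞 K) - a) :
    ∃ v : (𝓞 K)ˣ, u = v ^ 7 := by
  have hζ := IsCyclotomicExtension.zeta_spec 7 ℚ K
  have hp3 : 3 ≤ 7 := by norm_num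
  refine kummer_of_linearIndependent hζ hp3 (κ := Fin 3) (by simp) (g7 hζ) ?_ u a h
  exact linearIndependent_of_coeffs 7 (n := 5) (by norm_num) M7 N7 hMN7 _ (hw7 hζ hp3)

end Fermat.Agent.Kummer.KL
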