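import Mathlib

set_option autoImplicit false

namespace Fermat.Agent.Kummer

open NumberField Polynomial InfinitePlace Nat Real Ideal IsCyclotomicExtension.Rat Module

/-- Generic PID criterion for the `p`-th cyclotomic field: `B` bounds the Minkowski bound, and
every prime `q ≤ B`, `q ≠ p`, either has `q ^ f > B` for its residue degree `f` (checked through
powers of `q` in `ZMod p`) or has a principal prime above it. -/
theorem pid_of_checks (p : ℕ) [hp : Fact p.Prime] (K : Type*) [Field K] [NumberField K]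
    [IsCyclotomicExtension {p} ℚ K] (B : ℕ)
    (hB : ⌊(4 / π) ^ nrComplexPlaces K *
      ((finrank ℚ K)! / (finrank ℚ K) ^ (finrank ℚ K) * √|discr K|)⌋₊ ≤ B)
    (h : ∀ q ∈ Finset.Icc 1 B, q.Prime → q ≠ p →
      (∀ k ∈ Finset.Icc 1 B, q ^ k ≤ B → (q : ZMod p) ^ k ≠ 1) ∨
      ∃ P ∈ primesOver (span {(q : ℤ)}) (𝓞 K), Submodule.IsPrincipal P) :
    IsPrincipalIdealRing (𝓞 K) := by
  have hgal : IsGalois ℚ K := IsCyclotomicExtension.isGalois {p} ℚ K
  refine RingOfIntegers.isPrincipalIdealRing_of_isPrincipal_of_lt_or_isPrincipal_of_mem_primesOver_of_mem_Icc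
    (fun q hqmem hq => ?_)
  have hqB : q ∈ Finset.Icc 1 B := by
    rw [Finset.mem_Icc] at hqmem ⊢
    exact ⟨hqmem.1, hqmem.2.trans hB⟩
  have hqf : Fact q.Prime := ⟨hq⟩
  obtain ⟨⟨P, hP1, hP2⟩⟩ := (span {(q : ℤ)}).nonempty_primesOver (S := 𝓞 K)
  by_cases hqp : q = p
  · subst hqp
    refine ⟨P, ⟨hP1, hP2⟩, Or.inr ?_⟩
    have := eq_span_zeta_sub_one_of_liesOver' q K (IsCyclotomicExtension.zeta_spec q ℚ K) P
    rw [this]
    exact ⟨⟨_, rfl⟩⟩
  · rcases h q hqB hq hqp with hord | ⟨P', hP', hprin⟩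
    · refine ⟨P, ⟨hP1, hP2⟩, Or.inl ?_⟩
      have hndvd : ¬ q ∣ p := by
        intro hd
        exact hqp ((Nat.prime_dvd_prime_iff_eq hq hp.out).mp hd)
      have hf : P.inertiaDeg ℤ = orderOf (q : ZMod p) :=
        inertiaDeg_eq_of_not_dvd (m := p) q K P hndvd
      rw [hf]
      by_contra hcon
      rw [not_lt] at hcon
      have hcop : q.Coprime p := (Nat.coprime_primes hq hp.out).mpr hqp
      have hpos : 0 < orderOf (q : ZMod p) := by
        have hu : IsUnit (q : ZMod p) := (ZMod.isUnit_iff_coprime q p).mpr hcop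
        have : NeZero p := ⟨hp.out.ne_zero⟩
        exact orderOf_pos_iff.mpr (isOfFinOrder_iff_isUnit.mpr hu)
      have hle : q ^ orderOf (q : ZMod p) ≤ B := by
        by_contra hlt
        rw [not_le] at hlt
        exact absurd (hB.trans_lt hlt) (not_lt.mpr hcon)
      have hk : orderOf (q : ZMod p) ∈ Finset.Icc 1 B := by
        rw [Finset.mem_Icc]
        refine ⟨hpos, ?_⟩
        calc orderOf (q : ZMod p) ≤ 2 ^ orderOf (q : ZMod p) := Nat.lt_two_pow_self.le
          _ ≤ q ^ orderOf (q : ZMod p) := Nat.pow_le_pow_left hq.two_le _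
          _ ≤ B := hle
      exact hord _ hk hle (pow_orderOf_eq_one _)
    · exact ⟨P', hP', Or.inr hprin⟩

/-- Variant of `pid_of_checks` where the exponents `k` only range up to `L`, `B < 2 ^ L`.
Generic PID criterion for the `p`-th cyclotomic field: `B` bounds the Minkowski bound, and
every prime `q ≤ B`, `q ≠ p`, either has `q ^ f > B` for its residue degree `f` (checked through
powers of `q` in `ZMod p`) or has a principal prime above it. -/
theorem pid_of_checks_log (p : ℕ) [hp : Fact p.Prime] (K : Type*) [Field K] [NumberField K]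
    [IsCyclotomicExtension {p} ℚ K] (B L : ℕ) (hL : B < 2 ^ L)
    (hB : ⌊(4 / π) ^ nrComplexPlaces K *
      ((finrank ℚ K)! / (finrank ℚ K) ^ (finrank ℚ K) * √|discr K|)⌋₊ ≤ B)
    (h : ∀ q ∈ Finset.Icc 1 B, q.Prime → q ≠ p →
      (∀ k ∈ Finset.Icc 1 L, q ^ k ≤ B → (q : ZMod p) ^ k ≠ 1) ∨
      ∃ P ∈ primesOver (span {(q : ℤ)}) (𝓞 K), Submodule.IsPrincipal P) :
    IsPrincipalIdealRing (𝓞 K) := by
  have hgal : IsGalois ℚ K := IsCyclotomicExtension.isGalois {p} ℚ K
  refine RingOfIntegers.isPrincipalIdealRing_of_isPrincipal_of_lt_or_isPrincipal_of_mem_primesOver_of_mem_Icc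
    (fun q hqmem hq => ?_)
  have hqB : q ∈ Finset.Icc 1 B := by
    rw [Finset.mem_Icc] at hqmem ⊢
    exact ⟨hqmem.1, hqmem.2.trans hB⟩
  have hqf : Fact q.Prime := ⟨hq⟩
  obtain ⟨⟨P, hP1, hP2⟩⟩ := (span {(q : ℤ)}).nonempty_primesOver (S := 𝓞 K)
  by_cases hqp : q = p
  · subst hqp
    refine ⟨P, ⟨hP1, hP2⟩, Or.inr ?_⟩
    have := eq_span_zeta_sub_one_of_liesOver' q K (IsCyclotomicExtension.zeta_spec q ℚ K) P
    rw [this]
    exact ⟨⟨_, rfl⟩⟩
  · rcases h q hqB hq hqp with hord | ⟨P', hP', hprin⟩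
    · refine ⟨P, ⟨hP1, hP2⟩, Or.inl ?_⟩
      have hndvd : ¬ q ∣ p := by
        intro hd
        exact hqp ((Nat.prime_dvd_prime_iff_eq hq hp.out).mp hd)
      have hf : P.inertiaDeg ℤ = orderOf (q : ZMod p) :=
        inertiaDeg_eq_of_not_dvd (m := p) q K P hndvd
      rw [hf]
      by_contra hcon
      rw [not_lt] at hcon
      have hcop : q.Coprime p := (Nat.coprime_primes hq hp.out).mpr hqp
      have hpos : 0 < orderOf (q : ZMod p) := by
        have hu : IsUnit (q : ZMod p) := (ZMod.isUnit_iff_coprime q p).mpr hcop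
        have : NeZero p := ⟨hp.out.ne_zero⟩
        exact orderOf_pos_iff.mpr (isOfFinOrder_iff_isUnit.mpr hu)
      have hle : q ^ orderOf (q : ZMod p) ≤ B := by
        by_contra hlt
        rw [not_le] at hlt
        exact absurd (hB.trans_lt hlt) (not_lt.mpr hcon)
      have hk : orderOf (q : ZMod p) ∈ Finset.Icc 1 L := by
        rw [Finset.mem_Icc]
        refine ⟨hpos, ?_⟩
        have h2 : 2 ^ orderOf (q : ZMod p) < 2 ^ L :=
          calc 2 ^ orderOf (q : ZMod p) ≤ q ^ orderOf (q : ZMod p) :=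
                Nat.pow_le_pow_left hq.two_le _
            _ ≤ B := hle
            _ < 2 ^ L := hL
        exact ((Nat.pow_lt_pow_iff_right (by norm_num)).mp h2).le
      exact hord _ hk hle (pow_orderOf_eq_one _)
    · exact ⟨P', hP', Or.inr hprin⟩

section Minkowski

variable (K : Type*) [Field K] [NumberField K]

/-- The Minkowski bound of `ℚ(ζ₇)` is less than `5`. -/
theorem minkowski_seven [IsCyclotomicExtension {7} ℚ K] :
    ⌊(4 / π) ^ nrComplexPlaces K *
      ((finrank ℚ K)! / (finrank ℚ K) ^ (finrank ℚ K) * √|discr K|)⌋₊ ≤ 4 := by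
  have hp7 : Fact (Nat.Prime 7) := ⟨by norm_num⟩
  have hfr : finrank ℚ K = 6 := by
    rw [IsCyclotomicExtension.finrank (n := 7) K (cyclotomic.irreducible_rat (by simp)),
      totient_prime hp7.out]
  have hnr : nrComplexPlaces K = 3 := by
    rw [nrComplexPlaces_eq_totient_div_two 7, totient_prime hp7.out]
  have hd : |((discr K : ℤ) : ℝ)| = 16807 := by
    rw [discr_prime 7 K]
    norm_num
  rw [hfr, hnr, hd]
  apply Nat.le_of_lt_succ
  rw [Nat.floor_lt (by positivity)]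
  have hpi : (3.14 : ℝ) < π := Real.pi_gt_d2
  have h1 : (4 / π) ^ 3 < (4 / 3.14) ^ 3 := by
    gcongr
  have hsq : √(16807 : ℝ) < 130 := by
    rw [Real.sqrt_lt' (by norm_num)]
    norm_num
  calc (4 / π) ^ 3 * ((6 ! : ℕ) / ((6 : ℕ) : ℝ) ^ 6 * √(16807 : ℝ))
      < (4 / 3.14) ^ 3 * ((6 ! : ℕ) / ((6 : ℕ) : ℝ) ^ 6 * 130) := by
        gcongr
    _ < ((4 : ℕ).succ : ℝ) := by
        simp only [Nat.factorial]
        norm_num

end Minkowski

theorem checks_seven : ∀ q ∈ Finset.Icc (1 : ℕ) 4, q.Prime → q ≠ 7 →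
    ∀ k ∈ Finset.Icc (1 : ℕ) 4, q ^ k ≤ 4 → ((q : ℕ) : ZMod 7) ^ k ≠ 1 := by
  decide

/-- `ℤ[ζ₇]` is a PID. -/
theorem pid7 (K : Type*) [Field K] [NumberField K] [IsCyclotomicExtension {7} ℚ K] :
    IsPrincipalIdealRing (𝓞 K) := by
  have hp7 : Fact (Nat.Prime 7) := ⟨by norm_num⟩
  exact pid_of_checks 7 K 4 (minkowski_seven K)
    (fun q hq hqp hq7 => Or.inl (checks_seven q hq hqp hq7))

end Fermat.Agent.Kummer
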