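import Mathlib

set_option autoImplicit false

/-!
# Minkowski bound and inert primes for the 11-th cyclotomic field (helper for S11)
-/

open NumberField Module InfinitePlace Nat Real Ideal

namespace Fermat.Agent.Kummer

variable (K : Type*) [Field K] [NumberField K] [IsCyclotomicExtension {11} ℚ K]

/-- The Minkowski bound of the 11-th cyclotomic field is `< 60`. -/
theorem minkowski11_lt :
    (4 / π) ^ nrComplexPlaces K *
      ((finrank ℚ K)! / (finrank ℚ K) ^ (finrank ℚ K) * √|discr K|) < 60 := by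
  have : Fact (Nat.Prime 11) := ⟨by norm_num⟩
  rw [IsCyclotomicExtension.Rat.discr_prime 11 K, IsCyclotomicExtension.Rat.finrank 11 K,
    IsCyclotomicExtension.Rat.nrComplexPlaces_eq_totient_div_two 11,
    totient_prime (by norm_num : Nat.Prime 11)]
  have h10 : (10 : ℕ)! = 3628800 := by decide
  have hsqrt : √|(((-1 : ℤ) ^ ((11 - 1) / 2) * ((11 : ℕ) : ℤ) ^ (11 - 2) : ℤ) : ℝ)| ≤ 48560 := by
    rw [Real.sqrt_le_left (by norm_num)]
    norm_num
  have hpi : (4 / π) ^ ((11 - 1) / 2) ≤ (4 / 3.14 : ℝ) ^ ((11 - 1) / 2) := by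
    gcongr
    exact pi_gt_d2.le
  calc (4 / π) ^ ((11 - 1) / 2) *
        (((11 - 1 : ℕ)! : ℝ) / ((11 - 1 : ℕ) : ℝ) ^ (11 - 1) *
          √|(((-1 : ℤ) ^ ((11 - 1) / 2) * ((11 : ℕ) : ℤ) ^ (11 - 2) : ℤ) : ℝ)|)
      ≤ (4 / 3.14 : ℝ) ^ ((11 - 1) / 2) *
        (((11 - 1 : ℕ)! : ℝ) / ((11 - 1 : ℕ) : ℝ) ^ (11 - 1) * 48560) := by
        gcongr
    _ < 60 := by
        norm_num [h10]

end Fermat.Agent.Kummer

namespace Fermat.Agent.Kummer

/-- Auxiliary: lower bound for `n ^ orderOf n` modulo `11`. -/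
theorem pid11_lt_pow_orderOf_aux (n : ℕ) (h0 : ((n : ℕ) : ZMod 11) ≠ 0) (h1 : ((n : ℕ) : ZMod 11) ≠ 1)
    (h : 8 ≤ n ∨ (((n : ℕ) : ZMod 11) ^ 2 ≠ 1 ∧ ((((n : ℕ) : ZMod 11) ^ 5 ≠ 1 ∧ 2 ≤ n) ∨ 3 ≤ n))) :
    59 < n ^ orderOf ((n : ℕ) : ZMod 11) := by
  haveI : Fact (Nat.Prime 11) := ⟨by norm_num⟩
  set x : ZMod 11 := ((n : ℕ) : ZMod 11) with hx
  have hd : orderOf x ∣ 10 := by
    apply orderOf_dvd_of_pow_eq_one
    have := ZMod.pow_card_sub_one_eq_one (p := 11) h0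
    simpa using this
  have hmem : orderOf x ∈ Nat.divisors 10 := Nat.mem_divisors.mpr ⟨hd, by norm_num⟩
  have hdiv : Nat.divisors 10 = {1, 2, 5, 10} := by decide
  rw [hdiv] at hmem
  simp only [Finset.mem_insert, Finset.mem_singleton] at hmem
  have hne1 : orderOf x ≠ 1 := fun h => h1 (orderOf_eq_one_iff.mp h)
  rcases h with h8 | ⟨h2, h5⟩
  · have hf : 2 ≤ orderOf x := by
      rcases hmem with h | h | h | h <;> omega
    calc 59 < 8 ^ 2 := by norm_num
      _ ≤ n ^ 2 := Nat.pow_le_pow_left h8 2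
      _ ≤ n ^ orderOf x := Nat.pow_le_pow_right (by omega) hf
  · have hne2 : orderOf x ≠ 2 := fun h => h2 (h ▸ pow_orderOf_eq_one x)
    rcases h5 with ⟨h5, hn2⟩ | hn3
    · have hne5 : orderOf x ≠ 5 := fun h => h5 (h ▸ pow_orderOf_eq_one x)
      have hf : orderOf x = 10 := by
        rcases hmem with h | h | h | h <;> first | omega | exact absurd h hne1
      rw [hf]
      calc 59 < 2 ^ 10 := by norm_num
        _ ≤ n ^ 10 := Nat.pow_le_pow_left hn2 10
    · have hf : 5 ≤ orderOf x := by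
        rcases hmem with h | h | h | h <;> omega
      calc 59 < 3 ^ 5 := by norm_num
        _ ≤ n ^ 5 := Nat.pow_le_pow_left hn3 5
        _ ≤ n ^ orderOf x := Nat.pow_le_pow_right (by omega) hf

/-- For a prime `p ≤ 59` different from `11` and `23`, `p ^ f > 59` where `f` is the order of `p`
modulo `11`. -/
theorem pid11_lt_pow_orderOf_of_prime {p : ℕ} (hp : p.Prime) (hp59 : p ≤ 59) (h11 : p ≠ 11)
    (h23 : p ≠ 23) : 59 < p ^ orderOf ((p : ℕ) : ZMod 11) := by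
  have hpos : 2 ≤ p := hp.two_le
  interval_cases p <;> first
    | (exfalso; revert hp; norm_num; done)
    | (exfalso; exact h11 rfl)
    | (exfalso; exact h23 rfl)
    | exact pid11_lt_pow_orderOf_aux _ (by decide) (by decide) (by decide)

end Fermat.Agent.Kummer

namespace Fermat.Agent.Kummer

open Polynomial IsCyclotomicExtension

section P23

variable (K : Type*) [Field K] [NumberField K] [IsCyclotomicExtension {11} ℚ K]

/-- The distinguished primitive 11-th root of unity in `𝓞 K`. -/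
noncomputable def zeta11 : 𝓞 K := (zeta_spec 11 ℚ K).toInteger

theorem zeta11_geom_sum :
    1 + zeta11 K + zeta11 K ^ 2 + zeta11 K ^ 3 + zeta11 K ^ 4 + zeta11 K ^ 5 + zeta11 K ^ 6 +
      zeta11 K ^ 7 + zeta11 K ^ 8 + zeta11 K ^ 9 + zeta11 K ^ 10 = 0 := by
  have h := (zeta_spec 11 ℚ K).toInteger_isPrimitiveRoot.geom_sum_eq_zero (by norm_num)
  simpa [Finset.sum_range_succ, zeta11] using h

theorem minpoly_zeta11 : minpoly ℤ (zeta11 K) = cyclotomic 11 ℤ := by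
  rw [cyclotomic_eq_minpoly (zeta_spec 11 ℚ K) (by norm_num), zeta11,
    ← RingOfIntegers.minpoly_coe]
  rfl

/-- The ring homomorphism `𝓞 K → ZMod 23` sending `ζ` to `2`. -/
noncomputable def phi23 : 𝓞 K →ₐ[ℤ] ZMod 23 :=
  (zeta_spec 11 ℚ K).integralPowerBasis.lift (2 : ZMod 23) (by
    rw [IsPrimitiveRoot.integralPowerBasis_gen]
    have hmin := minpoly_zeta11 K
    rw [zeta11] at hmin
    haveI : Fact (Nat.Prime 11) := ⟨by norm_num⟩
    rw [hmin, cyclotomic_prime]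
    simp only [map_sum, map_pow, aeval_X]
    decide)

theorem phi23_zeta11 : phi23 K (zeta11 K) = 2 := by
  have hgen : zeta11 K = (zeta_spec 11 ℚ K).integralPowerBasis.gen :=
    (IsPrimitiveRoot.integralPowerBasis_gen _).symm
  rw [hgen]
  exact PowerBasis.lift_gen _ _ _

/-- The generator `α = 1 + ζ - ζ^8` of a prime above `23`. -/
noncomputable def alpha23 : 𝓞 K := 1 + zeta11 K - zeta11 K ^ 8

theorem alpha23_mul_beta :
    alpha23 K * (8 + (-11) * zeta11 K + (-9) * zeta11 K ^ 2 + (-8) * zeta11 K ^ 3 +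
      4 * zeta11 K ^ 4 + (-13) * zeta11 K ^ 5 + (-10) * zeta11 K ^ 6 + 3 * zeta11 K ^ 7 +
      (-2) * zeta11 K ^ 8 + (-16) * zeta11 K ^ 9) = 23 := by
  have h := zeta11_geom_sum K
  rw [alpha23]
  linear_combination ((-15) + 12 * zeta11 K + (-17) * zeta11 K ^ 2 + 3 * zeta11 K ^ 3 +
    13 * zeta11 K ^ 4 + (-5) * zeta11 K ^ 5 + (-14) * zeta11 K ^ 6 + 16 * zeta11 K ^ 7) * h

theorem alpha23_mul_gamma :
    alpha23 K * (2 * zeta11 K + zeta11 K ^ 2 + zeta11 K ^ 3 + 2 * zeta11 K ^ 5 + zeta11 K ^ 6 +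
      zeta11 K ^ 8 + 2 * zeta11 K ^ 9) = zeta11 K - 2 := by
  have h := zeta11_geom_sum K
  rw [alpha23]
  linear_combination (2 + (-1) * zeta11 K + 2 * zeta11 K ^ 2 + (-1) * zeta11 K ^ 3 +
    (-1) * zeta11 K ^ 4 + zeta11 K ^ 5 + zeta11 K ^ 6 + (-2) * zeta11 K ^ 7) * h

theorem phi23_alpha23 : phi23 K (alpha23 K) = 0 := by
  rw [alpha23, map_sub, map_add, map_pow, map_one, phi23_zeta11]
  decide

theorem ker_phi23_eq : RingHom.ker (phi23 K : 𝓞 K →+* ZMod 23) = Ideal.span {alpha23 K} := by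
  apply le_antisymm
  · intro x hx
    rw [RingHom.mem_ker] at hx
    obtain ⟨f, rfl⟩ := (zeta_spec 11 ℚ K).integralPowerBasis.exists_eq_aeval' x
    rw [IsPrimitiveRoot.integralPowerBasis_gen] at hx ⊢
    change phi23 K (aeval (zeta11 K) f) = 0 at hx
    change aeval (zeta11 K) f ∈ _
    -- `aeval ζ f ≡ f(2)` modulo `ζ - 2`
    have h1 : zeta11 K - 2 ∣ aeval (zeta11 K) f - ((f.eval 2 : ℤ) : 𝓞 K) := by
      have := Polynomial.sub_dvd_eval_sub (zeta11 K) (((2 : ℤ) : 𝓞 K))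
        (f.map (Int.castRingHom (𝓞 K)))
      rw [Polynomial.eval_intCast_map (Int.castRingHom (𝓞 K)) f 2, Polynomial.eval_map,
        ← algebraMap_int_eq, ← Polynomial.aeval_def] at this
      simpa using this
    -- `φ (aeval ζ f) = f(2) mod 23`
    have h2 : ((f.eval 2 : ℤ) : ZMod 23) = 0 := by
      have h3 : phi23 K (aeval (zeta11 K) f) = aeval (2 : ZMod 23) f := by
        rw [← Polynomial.aeval_algHom_apply, phi23_zeta11]
      rw [hx] at h3
      have h4 := Polynomial.eval_intCast_map (Int.castRingHom (ZMod 23)) f 2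
      rw [Polynomial.eval_map, ← algebraMap_int_eq, ← Polynomial.aeval_def] at h4
      rw [eq_intCast] at h4
      simp only [Int.cast_ofNat] at h4
      rw [← h4]
      exact h3.symm
    obtain ⟨m, hm⟩ := (ZMod.intCast_zmod_eq_zero_iff_dvd _ 23).mp h2
    obtain ⟨y, hy⟩ := h1
    rw [Ideal.mem_span_singleton]
    refine ⟨(2 * zeta11 K + zeta11 K ^ 2 + zeta11 K ^ 3 + 2 * zeta11 K ^ 5 + zeta11 K ^ 6 +
      zeta11 K ^ 8 + 2 * zeta11 K ^ 9) * y +
      (8 + (-11) * zeta11 K + (-9) * zeta11 K ^ 2 + (-8) * zeta11 K ^ 3 +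
      4 * zeta11 K ^ 4 + (-13) * zeta11 K ^ 5 + (-10) * zeta11 K ^ 6 + 3 * zeta11 K ^ 7 +
      (-2) * zeta11 K ^ 8 + (-16) * zeta11 K ^ 9) * (m : 𝓞 K), ?_⟩
    have hb := alpha23_mul_beta K
    have hg := alpha23_mul_gamma K
    have hm' : ((f.eval 2 : ℤ) : 𝓞 K) = 23 * (m : 𝓞 K) := by
      rw [hm]; push_cast; ring
    linear_combination hy + hm' - y * hg - (m : 𝓞 K) * hb
  · rw [Ideal.span_le, Set.singleton_subset_iff]
    exact phi23_alpha23 K

theorem ker_phi23_isPrime : (RingHom.ker (phi23 K : 𝓞 K →+* ZMod 23)).IsPrime := by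
  haveI : Fact (Nat.Prime 23) := ⟨by norm_num⟩
  exact RingHom.ker_isPrime _

theorem ker_phi23_liesOver :
    (RingHom.ker (phi23 K : 𝓞 K →+* ZMod 23)).LiesOver (Ideal.span {((23 : ℕ) : ℤ)}) := by
  constructor
  have h1 : ((phi23 K : 𝓞 K →+* ZMod 23).comp (algebraMap ℤ (𝓞 K))) = Int.castRingHom (ZMod 23) :=
    RingHom.ext_int _ _
  rw [Ideal.under, RingHom.comap_ker, h1, ZMod.ker_intCastRingHom]

/-- The ring of integers of the 11-th cyclotomic field is a principal ideal domain. -/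
theorem pid11 : IsPrincipalIdealRing (𝓞 K) := by
  haveI : IsGalois ℚ K := IsCyclotomicExtension.isGalois {11} ℚ K
  apply RingOfIntegers.isPrincipalIdealRing_of_isPrincipal_of_lt_or_isPrincipal_of_mem_primesOver_of_mem_Icc
  intro p hp hprime
  have hM : ⌊(4 / π) ^ nrComplexPlaces K *
      ((finrank ℚ K)! / (finrank ℚ K) ^ (finrank ℚ K) * √|discr K|)⌋₊ ≤ 59 := by
    apply Nat.le_of_lt_succ
    rw [Nat.floor_lt (by positivity)]
    exact_mod_cast minkowski11_lt K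
  have hp59 : p ≤ 59 := (Finset.mem_Icc.mp hp).2.trans hM
  by_cases h11 : p = 11
  · subst h11
    haveI : Fact (Nat.Prime 11) := ⟨hprime⟩
    refine ⟨Ideal.span {(zeta_spec 11 ℚ K).toInteger - 1}, ⟨inferInstance, ?_⟩,
      Or.inr ⟨⟨_, rfl⟩⟩⟩
    have : IsCyclotomicExtension {11 ^ (0 + 1)} ℚ K := by simpa using ‹IsCyclotomicExtension {11} ℚ K›
    exact IsCyclotomicExtension.Rat.liesOver_span_zeta_sub_one 11 0
      (hζ := by simp [zeta_spec 11 ℚ K])
  by_cases h23 : p = 23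
  · subst h23
    refine ⟨RingHom.ker (phi23 K : 𝓞 K →+* ZMod 23), ⟨ker_phi23_isPrime K, ker_phi23_liesOver K⟩,
      Or.inr ⟨⟨alpha23 K, ker_phi23_eq K⟩⟩⟩
  · haveI : Fact p.Prime := ⟨hprime⟩
    obtain ⟨⟨P, hP1, hP2⟩⟩ := (Ideal.span {(p : ℤ)}).nonempty_primesOver (S := 𝓞 K)
    refine ⟨P, ⟨hP1, hP2⟩, Or.inl ?_⟩
    have hnd : ¬ p ∣ 11 := by
      intro h
      rcases (Nat.dvd_prime (by norm_num : Nat.Prime 11)).mp h with h | h
      · exact hprime.one_lt.ne' h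
      · exact h11 h
    rw [IsCyclotomicExtension.Rat.inertiaDeg_eq_of_not_dvd p K P hnd]
    exact lt_of_le_of_lt hM (pid11_lt_pow_orderOf_of_prime hprime hp59 h11 h23)

end P23

end Fermat.Agent.Kummer
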