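import Fermat.Agent.Kummer.PID

set_option autoImplicit false

/-!
# `ℤ[ζ₁₃]` is a principal ideal domain (Kummer project, K2)
-/

namespace Fermat.Agent.Kummer

open NumberField Polynomial Ideal IsCyclotomicExtension.Rat RingOfIntegers NumberField.Ideal
  UniqueFactorizationMonoid InfinitePlace Module

/-- Kummer–Dedekind packaged for prime cyclotomic fields: if `Q mod q` is a monic irreducible
factor of the `p`-th cyclotomic polynomial mod `q`, and the ideal `(q, Q(ζ))` is generated by a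
single element, then there is a principal prime above `q`. -/
theorem exists_principal_prime (p q : ℕ) [hp : Fact p.Prime] [hq : Fact q.Prime]
    (K : Type*) [Field K] [NumberField K] [IsCyclotomicExtension {p} ℚ K]
    (Q : ℤ[X]) (hQirr : Irreducible (Q.map (Int.castRingHom (ZMod q))))
    (hQmonic : (Q.map (Int.castRingHom (ZMod q))).Monic)
    (hQdvd : Q.map (Int.castRingHom (ZMod q)) ∣ cyclotomic p (ZMod q))
    (α : 𝓞 K)
    (hα : span {(q : 𝓞 K), aeval (IsCyclotomicExtension.zeta_spec p ℚ K).toInteger Q} =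
      span {α}) :
    ∃ P ∈ primesOver (span {(q : ℤ)}) (𝓞 K), Submodule.IsPrincipal P := by
  classical
  set θ := (IsCyclotomicExtension.zeta_spec p ℚ K).toInteger with hθ
  have h₁ : ¬ q ∣ exponent θ := by
    rw [exponent_eq_one_iff.mpr <| adjoin_singleton_eq_top (IsCyclotomicExtension.zeta_spec p ℚ K)]
    exact hq.out.not_dvd_one
  have hmin : map (Int.castRingHom (ZMod q)) (minpoly ℤ θ) = cyclotomic p (ZMod q) := by
    rw [← map_cyclotomic_int, cyclotomic_eq_minpoly (IsCyclotomicExtension.zeta_spec p ℚ K)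
      hp.out.pos, ← (IsCyclotomicExtension.zeta_spec p ℚ K).coe_toInteger,
      ← RingOfIntegers.minpoly_coe θ]
    rfl
  have hQ : Q.map (Int.castRingHom (ZMod q)) ∈ monicFactorsMod θ q := by
    rw [Multiset.mem_toFinset, Polynomial.mem_normalizedFactors_iff
      (map_monic_ne_zero (minpoly.monic θ.isIntegral)), hmin]
    exact ⟨hQirr, hQmonic, hQdvd⟩
  refine ⟨span {(q : 𝓞 K), aeval θ Q}, ?_, ?_⟩
  · rw [← primesOverSpanEquivMonicFactorsMod_symm_apply_eq_span h₁ hQ]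
    exact ((primesOverSpanEquivMonicFactorsMod h₁).symm ⟨_, hQ⟩).prop
  · rw [hα]
    exact ⟨⟨α, rfl⟩⟩

/-- Degree-one case: `r` a root of the cyclotomic polynomial mod `q`. -/
theorem exists_principal_prime_of_root (p q : ℕ) [hp : Fact p.Prime] [hq : Fact q.Prime]
    (K : Type*) [Field K] [NumberField K] [IsCyclotomicExtension {p} ℚ K]
    (r : ℤ) (hr : (cyclotomic p (ZMod q)).IsRoot (r : ZMod q))
    (α β γ v : 𝓞 K) (u0 : ℤ)
    (h1 : α * β = (q : 𝓞 K))
    (h2 : α * γ = (IsCyclotomicExtension.zeta_spec p ℚ K).toInteger - (r : 𝓞 K))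
    (h3 : α = (q : 𝓞 K) * (u0 : 𝓞 K) +
      ((IsCyclotomicExtension.zeta_spec p ℚ K).toInteger - (r : 𝓞 K)) * v) :
    ∃ P ∈ primesOver (span {(q : ℤ)}) (𝓞 K), Submodule.IsPrincipal P := by
  have hmap : (X - C r : ℤ[X]).map (Int.castRingHom (ZMod q)) = X - C (r : ZMod q) := by
    simp
  refine exists_principal_prime p q K (X - C r) ?_ ?_ ?_ α ?_
  · rw [hmap]; exact irreducible_X_sub_C _
  · rw [hmap]; exact monic_X_sub_C _
  · rw [hmap]; exact dvd_iff_isRoot.mpr hr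
  · have haev : aeval (IsCyclotomicExtension.zeta_spec p ℚ K).toInteger (X - C r : ℤ[X]) =
        (IsCyclotomicExtension.zeta_spec p ℚ K).toInteger - (r : 𝓞 K) := by
      simp
    rw [haev]
    apply le_antisymm
    · rw [span_le]
      intro x hx
      rcases hx with rfl | hx
      · rw [← h1]; exact mem_span_singleton.mpr (dvd_mul_right _ _)
      · rw [Set.mem_singleton_iff] at hx
        rw [hx, ← h2]; exact mem_span_singleton.mpr (dvd_mul_right _ _)
    · rw [span_le, Set.singleton_subset_iff, SetLike.mem_coe, h3]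
      refine Ideal.add_mem _ (Ideal.mul_mem_right _ _ (subset_span (by simp)))
        (Ideal.mul_mem_right _ _ (subset_span (by simp)))

/-- The geometric-sum relation for the chosen primitive root in `𝓞 K`. -/
theorem zeta_geom_sum (p : ℕ) [hp : Fact p.Prime]
    (K : Type*) [Field K] [NumberField K] [IsCyclotomicExtension {p} ℚ K] :
    ∑ i ∈ Finset.range p, (IsCyclotomicExtension.zeta_spec p ℚ K).toInteger ^ i = 0 :=
  (IsCyclotomicExtension.zeta_spec p ℚ K).toInteger_isPrimitiveRoot.geom_sum_eq_zero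
    hp.out.one_lt


theorem isRoot_cyclotomic_13_53 : (cyclotomic 13 (ZMod 53)).IsRoot (((16 : ℤ)) : ZMod 53) := by
  have hp : Fact (Nat.Prime 13) := ⟨by norm_num⟩
  rw [cyclotomic_prime, IsRoot, eval_geom_sum]
  decide

theorem principal_13_53 (K : Type*) [Field K] [NumberField K]
    [IsCyclotomicExtension {13} ℚ K] :
    ∃ P ∈ primesOver (span {((53 : ℕ) : ℤ)}) (𝓞 K), Submodule.IsPrincipal P := by
  have hp : Fact (Nat.Prime 13) := ⟨by norm_num⟩
  have hq : Fact (Nat.Prime 53) := ⟨by norm_num⟩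
  have hΦ := zeta_geom_sum 13 K
  simp only [Finset.sum_range_succ, Finset.sum_range_zero, zero_add, pow_zero, pow_one] at hΦ
  set θ := (IsCyclotomicExtension.zeta_spec 13 ℚ K).toInteger with hθ
  refine exists_principal_prime_of_root 13 53 K 16 isRoot_cyclotomic_13_53
    (1 - θ + θ ^ 3)
    (25 + 10 * θ + 19 * θ ^ 2 + 3 * θ ^ 3 + 2 * θ ^ 4 - 8 * θ ^ 5 - 2 * θ ^ 6 + 5 * θ ^ 7 + 22 * θ ^ 8 + 33 * θ ^ 9 + 37 * θ ^ 10 + 24 * θ ^ 11)
    (-8 - 3 * θ - 6 * θ ^ 2 - θ ^ 3 - θ ^ 4 + 2 * θ ^ 5 - 2 * θ ^ 7 - 7 * θ ^ 8 - 10 * θ ^ 9 - 11 * θ ^ 10 - 7 * θ ^ 11)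
    (255 + 16 * θ + θ ^ 2) (77) ?_ ?_ ?_
  · push_cast
    linear_combination (-28 + 13 * θ + 24 * θ ^ 2) * hΦ
  · push_cast
    linear_combination (8 - 4 * θ - 7 * θ ^ 2) * hΦ
  · push_cast
    ring


theorem isRoot_cyclotomic_13_79 : (cyclotomic 13 (ZMod 79)).IsRoot (((62 : ℤ)) : ZMod 79) := by
  have hp : Fact (Nat.Prime 13) := ⟨by norm_num⟩
  rw [cyclotomic_prime, IsRoot, eval_geom_sum]
  decide

theorem principal_13_79 (K : Type*) [Field K] [NumberField K]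
    [IsCyclotomicExtension {13} ℚ K] :
    ∃ P ∈ primesOver (span {((79 : ℕ) : ℤ)}) (𝓞 K), Submodule.IsPrincipal P := by
  have hp : Fact (Nat.Prime 13) := ⟨by norm_num⟩
  have hq : Fact (Nat.Prime 79) := ⟨by norm_num⟩
  have hΦ := zeta_geom_sum 13 K
  simp only [Finset.sum_range_succ, Finset.sum_range_zero, zero_add, pow_zero, pow_one] at hΦ
  set θ := (IsCyclotomicExtension.zeta_spec 13 ℚ K).toInteger with hθ
  refine exists_principal_prime_of_root 13 79 K 62 isRoot_cyclotomic_13_79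
    (1 - θ - θ ^ 4)
    (62 + 63 * θ + 49 * θ ^ 2 + 8 * θ ^ 3 + 29 * θ ^ 4 + 51 * θ ^ 5 + 59 * θ ^ 6 + 26 * θ ^ 7 + 14 * θ ^ 8 + 24 * θ ^ 9 + 42 * θ ^ 10 + 27 * θ ^ 11)
    (-49 - 49 * θ - 38 * θ ^ 2 - 6 * θ ^ 3 - 23 * θ ^ 4 - 40 * θ ^ 5 - 46 * θ ^ 6 - 20 * θ ^ 7 - 11 * θ ^ 8 - 19 * θ ^ 9 - 33 * θ ^ 10 - 21 * θ ^ 11)
    (-238329 - 3844 * θ - 62 * θ ^ 2 - θ ^ 3) (-187043) ?_ ?_ ?_
  · push_cast
    linear_combination (-17 + 18 * θ - 15 * θ ^ 2 - 27 * θ ^ 3) * hΦ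
  · push_cast
    linear_combination (13 - 14 * θ + 12 * θ ^ 2 + 21 * θ ^ 3) * hΦ
  · push_cast
    ring


theorem isRoot_cyclotomic_13_131 : (cyclotomic 13 (ZMod 131)).IsRoot (((80 : ℤ)) : ZMod 131) := by
  have hp : Fact (Nat.Prime 13) := ⟨by norm_num⟩
  rw [cyclotomic_prime, IsRoot, eval_geom_sum]
  decide

theorem principal_13_131 (K : Type*) [Field K] [NumberField K]
    [IsCyclotomicExtension {13} ℚ K] :
    ∃ P ∈ primesOver (span {((131 : ℕ) : ℤ)}) (𝓞 K), Submodule.IsPrincipal P := by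
  have hp : Fact (Nat.Prime 13) := ⟨by norm_num⟩
  have hq : Fact (Nat.Prime 131) := ⟨by norm_num⟩
  have hΦ := zeta_geom_sum 13 K
  simp only [Finset.sum_range_succ, Finset.sum_range_zero, zero_add, pow_zero, pow_one] at hΦ
  set θ := (IsCyclotomicExtension.zeta_spec 13 ℚ K).toInteger with hθ
  refine exists_principal_prime_of_root 13 131 K 80 isRoot_cyclotomic_13_131
    (1 - θ - θ ^ 3)
    (111 + 78 * θ + 17 * θ ^ 2 + 67 * θ ^ 3 + 84 * θ ^ 4 + 40 * θ ^ 5 + 46 * θ ^ 6 + 69 * θ ^ 7 + 48 * θ ^ 8 + 33 * θ ^ 9 + 41 * θ ^ 10 + 28 * θ ^ 11)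
    (-68 - 47 * θ - 10 * θ ^ 2 - 41 * θ ^ 3 - 51 * θ ^ 4 - 24 * θ ^ 5 - 28 * θ ^ 6 - 42 * θ ^ 7 - 29 * θ ^ 8 - 20 * θ ^ 9 - 25 * θ ^ 10 - 17 * θ ^ 11)
    (-6401 - 80 * θ - θ ^ 2) (-3909) ?_ ?_ ?_
  · push_cast
    linear_combination (-20 - 13 * θ - 28 * θ ^ 2) * hΦ
  · push_cast
    linear_combination (12 + 8 * θ + 17 * θ ^ 2) * hΦ
  · push_cast
    ring


theorem isRoot_cyclotomic_13_157 : (cyclotomic 13 (ZMod 157)).IsRoot (((75 : ℤ)) : ZMod 157) := by
  have hp : Fact (Nat.Prime 13) := ⟨by norm_num⟩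
  rw [cyclotomic_prime, IsRoot, eval_geom_sum]
  decide

theorem principal_13_157 (K : Type*) [Field K] [NumberField K]
    [IsCyclotomicExtension {13} ℚ K] :
    ∃ P ∈ primesOver (span {((157 : ℕ) : ℤ)}) (𝓞 K), Submodule.IsPrincipal P := by
  have hp : Fact (Nat.Prime 13) := ⟨by norm_num⟩
  have hq : Fact (Nat.Prime 157) := ⟨by norm_num⟩
  have hΦ := zeta_geom_sum 13 K
  simp only [Finset.sum_range_succ, Finset.sum_range_zero, zero_add, pow_zero, pow_one] at hΦ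
  set θ := (IsCyclotomicExtension.zeta_spec 13 ℚ K).toInteger with hθ
  refine exists_principal_prime_of_root 13 157 K 75 isRoot_cyclotomic_13_157
    (1 - θ + θ ^ 2 + θ ^ 4)
    (89 + 86 * θ + 42 * θ ^ 2 + 77 * θ ^ 3 + 67 * θ ^ 4 + 25 * θ ^ 5 + 37 * θ ^ 6 + 56 * θ ^ 7 + 73 * θ ^ 8 + 113 * θ ^ 9 + 124 * θ ^ 10 + 76 * θ ^ 11)
    (-43 - 41 * θ - 20 * θ ^ 2 - 37 * θ ^ 3 - 32 * θ ^ 4 - 12 * θ ^ 5 - 18 * θ ^ 6 - 27 * θ ^ 7 - 35 * θ ^ 8 - 54 * θ ^ 9 - 59 * θ ^ 10 - 36 * θ ^ 11)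
    (421949 + 5626 * θ + 75 * θ ^ 2 + θ ^ 3) (201568) ?_ ?_ ?_
  · push_cast
    linear_combination (-68 + 65 * θ + 48 * θ ^ 2 + 76 * θ ^ 3) * hΦ
  · push_cast
    linear_combination (32 - 31 * θ - 23 * θ ^ 2 - 36 * θ ^ 3) * hΦ
  · push_cast
    ring


theorem no_root_13_3 : ∀ x : ZMod 3, ¬ x ^ 3 - x - 1 = 0 := by
  decide

theorem principal_13_3 (K : Type*) [Field K] [NumberField K]
    [IsCyclotomicExtension {13} ℚ K] :
    ∃ P ∈ primesOver (span {((3 : ℕ) : ℤ)}) (𝓞 K), Submodule.IsPrincipal P := by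
  have hp : Fact (Nat.Prime 13) := ⟨by norm_num⟩
  have hq : Fact (Nat.Prime 3) := ⟨by norm_num⟩
  have hΦ := zeta_geom_sum 13 K
  simp only [Finset.sum_range_succ, Finset.sum_range_zero, zero_add, pow_zero, pow_one] at hΦ
  set θ := (IsCyclotomicExtension.zeta_spec 13 ℚ K).toInteger with hθ
  have hmap : (X ^ 3 - X - 1 : ℤ[X]).map (Int.castRingHom (ZMod 3)) = X ^ 3 - X - 1 := by
    simp
  have hdeg : (X ^ 3 - X - 1 : (ZMod 3)[X]).natDegree = 3 := by
    compute_degree!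
  have hmonic : (X ^ 3 - X - 1 : (ZMod 3)[X]).Monic := by
    monicity!
  refine exists_principal_prime 13 3 K (X ^ 3 - X - 1) ?_ ?_ ?_ (θ ^ 3 - θ - 1) ?_
  · rw [hmap]
    refine irreducible_of_degree_le_three_of_not_isRoot (by rw [hdeg]; decide) ?_
    intro x
    simp only [IsRoot, eval_sub, eval_pow, eval_X, eval_one]
    exact no_root_13_3 x
  · rw [hmap]; exact hmonic
  · rw [hmap]
    have hcyc : cyclotomic 13 ℤ = (X ^ 3 - X - 1) *
        (20 + 15 * X + 11 * X ^ 2 + 8 * X ^ 3 + 6 * X ^ 4 + 4 * X ^ 5 + 3 * X ^ 6 + 2 * X ^ 7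
          + X ^ 8 + X ^ 9) + 3 * (7 + 12 * X + 9 * X ^ 2) := by
      rw [cyclotomic_prime]
      simp only [Finset.sum_range_succ, Finset.sum_range_zero, zero_add, pow_zero, pow_one]
      ring
    have h3 : (3 : (ZMod 3)[X]) = 0 := by
      have : ((3 : ℕ) : (ZMod 3)[X]) = 0 := by
        rw [← C_eq_natCast, ZMod.natCast_self, C_0]
      exact_mod_cast this
    rw [← map_cyclotomic_int, hcyc]
    simp only [Polynomial.map_add, Polynomial.map_mul, Polynomial.map_sub, Polynomial.map_pow,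
      Polynomial.map_X, Polynomial.map_one, Polynomial.map_ofNat, h3, zero_mul, add_zero]
    exact dvd_mul_right _ _
  · have haev : aeval θ (X ^ 3 - X - 1 : ℤ[X]) = θ ^ 3 - θ - 1 := by
      simp
    rw [haev]
    apply le_antisymm
    · rw [span_le]
      intro x hx
      rcases hx with rfl | hx
      · have h3 : ((3 : ℕ) : 𝓞 K) = (θ ^ 3 - θ - 1) *
            (1 + θ ^ 2 + θ ^ 3 + 2 * θ ^ 5 + θ ^ 7 + 2 * θ ^ 8 - θ ^ 9 + 3 * θ ^ 10) := by
          push_cast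
          linear_combination (4 - 3 * θ) * hΦ
        rw [h3]
        exact mem_span_singleton.mpr (dvd_mul_right _ _)
      · rw [Set.mem_singleton_iff] at hx
        rw [hx]
        exact mem_span_singleton_self _
    · rw [span_le, Set.singleton_subset_iff]
      exact subset_span (by simp)

set_option maxRecDepth 100000 in
theorem checks_thirteen : ∀ q ∈ Finset.Icc (1 : ℕ) 306, q.Prime → q ≠ 13 →
    (q = 3 ∨ q = 53 ∨ q = 79 ∨ q = 131 ∨ q = 157) ∨
    ∀ k ∈ Finset.Icc (1 : ℕ) 9, q ^ k ≤ 306 → ((q : ℕ) : ZMod 13) ^ k ≠ 1 := by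
  decide

open Nat Real in
/-- The Minkowski bound of `ℚ(ζ₁₃)` is less than `307`. -/
theorem minkowski_thirteen (K : Type*) [Field K] [NumberField K]
    [IsCyclotomicExtension {13} ℚ K] :
    ⌊(4 / π) ^ nrComplexPlaces K *
      ((finrank ℚ K)! / (finrank ℚ K) ^ (finrank ℚ K) * √|discr K|)⌋₊ ≤ 306 := by
  have hp13 : Fact (Nat.Prime 13) := ⟨by norm_num⟩
  have hfr : finrank ℚ K = 12 := by
    rw [IsCyclotomicExtension.finrank (n := 13) K (cyclotomic.irreducible_rat (by simp)),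
      totient_prime hp13.out]
  have hnr : nrComplexPlaces K = 6 := by
    rw [nrComplexPlaces_eq_totient_div_two 13, totient_prime hp13.out]
  have hd : |((discr K : ℤ) : ℝ)| = 1792160394037 := by
    rw [discr_prime 13 K]
    norm_num
  rw [hfr, hnr, hd]
  apply Nat.le_of_lt_succ
  rw [Nat.floor_lt (by positivity)]
  have hpi : (3.1415 : ℝ) < π := Real.pi_gt_d4
  have h1 : (4 / π) ^ 6 < (4 / 3.1415) ^ 6 := by
    gcongr
  have hsq : √(1792160394037 : ℝ) < 1338720 := by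
    rw [Real.sqrt_lt' (by norm_num)]
    norm_num
  calc (4 / π) ^ 6 * ((12 ! : ℕ) / ((12 : ℕ) : ℝ) ^ 12 * √(1792160394037 : ℝ))
      < (4 / 3.1415) ^ 6 * ((12 ! : ℕ) / ((12 : ℕ) : ℝ) ^ 12 * 1338720) := by
        gcongr
    _ < ((306 : ℕ).succ : ℝ) := by
        simp only [Nat.factorial]
        norm_num

/-- `ℤ[ζ₁₃]` is a PID. -/
theorem pid13 (K : Type*) [Field K] [NumberField K] [IsCyclotomicExtension {13} ℚ K] :
    IsPrincipalIdealRing (𝓞 K) := by
  have hp13 : Fact (Nat.Prime 13) := ⟨by norm_num⟩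
  refine pid_of_checks_log 13 K 306 9 (by norm_num) (minkowski_thirteen K)
    (fun q hq hqp hq13 => ?_)
  rcases checks_thirteen q hq hqp hq13 with (rfl | rfl | rfl | rfl | rfl) | h
  · exact Or.inr (principal_13_3 K)
  · exact Or.inr (principal_13_53 K)
  · exact Or.inr (principal_13_79 K)
  · exact Or.inr (principal_13_131 K)
  · exact Or.inr (principal_13_157 K)
  · exact Or.inl h

end Fermat.Agent.Kummer
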