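import Mathlib

/-!
# Kummer's lemma, abstract half

If a commutative group `E` is generated by `n` elements, `L : E → B` is a homomorphism to an
`𝔽_p`-vector space and `L` is linearly independent on some `n` elements of `E`, then `L` is
injective modulo `p`-th powers: `L u = 0 → u = v ^ p`.

For `E = (𝓞 K)ˣ`, `K` the `p`-th cyclotomic field, Dirichlet's unit theorem gives
`n = (p - 1) / 2`.
-/

set_option autoImplicit false
set_option linter.style.haveILetI false

namespace Fermat.Agent.Kummer

open NumberField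

section Abstract

variable {p : ℕ} [hp : Fact p.Prime] {E : Type*} [CommGroup E] {B : Type*} [AddCommGroup B]
  [Module (ZMod p) B] {n : ℕ}

lemma intCast_zmod_smul (a : ℤ) (b : B) : ((a : ZMod p) • b) = a • b := by
  exact Int.cast_smul_eq_zsmul (ZMod p) a b

/-- Abstract form of the argument. -/
theorem exists_pow_eq_of_dlog_aux (g : Fin n → E)
    (hgen : ∀ x : E, ∃ e : Fin n → ℤ, x = ∏ i, g i ^ e i)
    (L : Additive E →+ B) (ε : Fin n → E)
    (hindep : LinearIndependent (ZMod p) (fun i => L (Additive.ofMul (ε i))))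
    (u : E) (hu : L (Additive.ofMul u) = 0) : ∃ v : E, u = v ^ p := by
  classical
  -- `L` of a product
  have hLprod : ∀ e : Fin n → ℤ, L (Additive.ofMul (∏ i, g i ^ e i))
      = ∑ i, (e i : ZMod p) • L (Additive.ofMul (g i)) := by
    intro e
    rw [ofMul_prod, map_sum]
    refine Finset.sum_congr rfl fun i _ => ?_
    rw [ofMul_zpow, map_zsmul, intCast_zmod_smul]
  -- the linear map induced by `L` on generators
  let Λ : (Fin n → ZMod p) →ₗ[ZMod p] B :=
    Fintype.linearCombination (ZMod p) (fun i => L (Additive.ofMul (g i)))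
  have hΛ : ∀ c : Fin n → ZMod p, Λ c = ∑ i, c i • L (Additive.ofMul (g i)) := fun c =>
    Fintype.linearCombination_apply (ZMod p) _ c
  -- express `ε j` in the generators
  choose m hm using fun j => hgen (ε j)
  let M : (Fin n → ZMod p) →ₗ[ZMod p] (Fin n → ZMod p) :=
    Fintype.linearCombination (ZMod p) (fun j => fun i => ((m j i : ℤ) : ZMod p))
  have hΛM : ∀ c : Fin n → ZMod p, Λ (M c) = ∑ j, c j • L (Additive.ofMul (ε j)) := by
    intro c
    have h1 : M c = ∑ j, c j • (fun i => ((m j i : ℤ) : ZMod p)) :=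
      Fintype.linearCombination_apply (ZMod p) _ c
    rw [h1, map_sum]
    refine Finset.sum_congr rfl fun j _ => ?_
    rw [map_smul, hΛ, hm j, hLprod]
  have hinjΛM : Function.Injective (Λ ∘ₗ M) := by
    rw [← LinearMap.ker_eq_bot, LinearMap.ker_eq_bot']
    intro c hc
    rw [LinearMap.comp_apply, hΛM] at hc
    exact funext fun i => (Fintype.linearIndependent_iff.mp hindep) c hc i
  have hinjM : Function.Injective M := fun a b hab => hinjΛM (by simp [hab])
  have hsurjM : Function.Surjective M := LinearMap.injective_iff_surjective.mp hinjM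
  have hinjΛ : ∀ c, Λ c = 0 → c = 0 := by
    intro c hc
    obtain ⟨c', rfl⟩ := hsurjM c
    have : c' = 0 := hinjΛM (by simpa using hc)
    simp [this]
  -- conclude
  obtain ⟨e, rfl⟩ := hgen u
  rw [hLprod, ← hΛ] at hu
  have he := hinjΛ _ hu
  have hdiv : ∀ i, (p : ℤ) ∣ e i := fun i => by
    have := congrFun he i
    simpa [ZMod.intCast_zmod_eq_zero_iff_dvd] using this
  choose e' he' using hdiv
  refine ⟨∏ i, g i ^ e' i, ?_⟩
  rw [← Finset.prod_pow]
  refine Finset.prod_congr rfl fun i _ => ?_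
  rw [he' i, zpow_mul', zpow_natCast]

end Abstract

section NumberField

variable {K : Type*} [Field K] [NumberField K]

/-- Dirichlet: the unit group is generated by `rank K + 1` elements. -/
lemma exists_generators_units :
    ∃ g : Fin (Units.rank K + 1) → (𝓞 K)ˣ,
      ∀ x : (𝓞 K)ˣ, ∃ e : Fin (Units.rank K + 1) → ℤ, x = ∏ i, g i ^ e i := by
  classical
  obtain ⟨τ, hτ⟩ := IsCyclic.exists_generator (α := Units.torsion K)
  refine ⟨Fin.cons (τ : (𝓞 K)ˣ) (Units.fundSystem K), fun x => ?_⟩
  obtain ⟨⟨ζ, e⟩, hx, -⟩ := Units.exist_unique_eq_mul_prod K x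
  obtain ⟨k, hk⟩ := Subgroup.mem_zpowers_iff.mp (hτ ζ)
  refine ⟨Fin.cons k e, ?_⟩
  rw [Fin.prod_univ_succ]
  simp only [Fin.cons_zero, Fin.cons_succ]
  rw [hx]
  congr 1
  rw [← hk]
  simp

variable {p : ℕ} [hp : Fact p.Prime] [IsCyclotomicExtension {p} ℚ K]

lemma rank_add_one_eq (hp2 : p ≠ 2) : Units.rank K + 1 = (p - 1) / 2 := by
  have h2 : 2 < p := lt_of_le_of_ne hp.out.two_le (Ne.symm hp2)
  haveI : NeZero p := ⟨hp.out.ne_zero⟩
  have h1 : Fintype.card (InfinitePlace K) = (p - 1) / 2 := by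
    rw [InfinitePlace.card_eq_nrRealPlaces_add_nrComplexPlaces,
      IsCyclotomicExtension.Rat.nrRealPlaces_eq_zero K h2,
      IsCyclotomicExtension.Rat.nrComplexPlaces_eq_totient_div_two p K,
      Nat.totient_prime hp.out, zero_add]
  unfold Units.rank
  rw [h1]
  have : 1 ≤ (p - 1) / 2 := by omega
  omega

/-- **Kummer's lemma, abstract half.** If `L` is a homomorphism from the units of the `p`-th
cyclotomic field to an `𝔽_p`-vector space which is linearly independent on `(p - 1) / 2`
units, then every unit killed by `L` is a `p`-th power. -/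
theorem exists_pow_eq_of_dlog (hp2 : p ≠ 2)
    {B : Type*} [AddCommGroup B] [Module (ZMod p) B]
    (L : Additive (𝓞 K)ˣ →+ B) (ε : Fin ((p - 1) / 2) → (𝓞 K)ˣ)
    (hindep : LinearIndependent (ZMod p) (fun i => L (Additive.ofMul (ε i))))
    (u : (𝓞 K)ˣ) (hu : L (Additive.ofMul u) = 0) : ∃ v : (𝓞 K)ˣ, u = v ^ p := by
  obtain ⟨g, hg⟩ : ∃ g : Fin ((p - 1) / 2) → (𝓞 K)ˣ,
      ∀ x : (𝓞 K)ˣ, ∃ e : Fin ((p - 1) / 2) → ℤ, x = ∏ i, g i ^ e i := by
    rw [← rank_add_one_eq (K := K) hp2]
    exact exists_generators_units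
  exact exists_pow_eq_of_dlog_aux g hg L ε hindep u hu

end NumberField

end Fermat.Agent.Kummer
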