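import Mathlib
import Fermat.Prelude.Def_FLTPrelim_FreyPackage
import Fermat.Agent.Kummer.CaseII

/-!
# Wiring: Fermat's Last Theorem for one exponent `p` kills all Frey packages with `P.p = p`

* `flt_of_caseI_of_pid_of_kummer`: Case I + (PID and Kummer's lemma for `ℤ[ζ_p]`) give FLT for `p`
  (for coprime integer solutions).
* `freyPackage_false_of_flt`: a Frey package with exponent `p` contradicts FLT for `p`.
-/

set_option autoImplicit false

namespace Fermat.Agent.Kummer

open NumberField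

/-- FLT for the odd prime exponent `p` (coprime integer solutions), from Case I and the two
inputs of Kummer's Case II: `𝓞 K` is a PID and Kummer's lemma holds. -/
theorem flt_of_caseI_of_pid_of_kummer {p : ℕ} [hp : Fact p.Prime] (hp2 : p ≠ 2)
    {K : Type*} [Field K] [NumberField K] [IsCyclotomicExtension {p} ℚ K]
    [IsPrincipalIdealRing (𝓞 K)]
    (kummer : ∀ (u : (𝓞 K)ˣ) (a : ℤ), (p : 𝓞 K) ∣ (u : 𝓞 K) - a → ∃ v : (𝓞 K)ˣ, u = v ^ p)
    (caseI : ∀ a b c : ℤ, IsCoprime a b → ¬ ((p : ℕ) : ℤ) ∣ a * b * c → a ^ p + b ^ p ≠ c ^ p)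
    (a b c : ℤ) (h0 : a * b * c ≠ 0) (hcop : IsCoprime a b) : a ^ p + b ^ p ≠ c ^ p := by
  by_cases hdvd : ((p : ℕ) : ℤ) ∣ a * b * c
  · exact caseII (K := K) hp2 kummer a b c h0 hcop hdvd
  · exact caseI a b c hcop hdvd

/-- A Frey package with exponent `p` contradicts FLT for exponent `p`. -/
theorem freyPackage_false_of_flt {p : ℕ}
    (flt : ∀ a b c : ℤ, a * b * c ≠ 0 → IsCoprime a b → a ^ p + b ^ p ≠ c ^ p)
    (P : FreyPackage) (hP : P.p = p) : False := by
  subst hP
  refine flt P.a P.b P.c P.habc0 ?_ P.hFLT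
  rw [Int.isCoprime_iff_gcd_eq_one]
  have h := P.hgcdab
  rw [← Int.coe_gcd] at h
  exact_mod_cast h

end Fermat.Agent.Kummer
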